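import Fermat.Agent.CFT.Global2.Image2
import Fermat.Agent.CFT.Local2.Symbols

/-!
# Unconditional global theory mod `p` for totally complex fields, all primes `p`
-/

set_option autoImplicit false

namespace Fermat.Agent.CFT.Global2

open Fermat.Agent.PT Fermat.Agent.CFT.Kum Fermat.Agent.CFT.Kum.KumSet Fermat.Agent.CFT.Bridge
open Fermat.Agent.CFT.Global
open NumberField IsDedekindDomain

variable {p : ℕ} [hp : Fact p.Prime]

/-- Units pair trivially away from `p`. -/
theorem unitMem : UnitMem p := by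
  intro q _ l _ ξ hξ inv hqp a x ha hx
  by_cases hp2 : p = 2
  · subst hp2
    exact symF_unit_two l hqp hξ inv ha hx
  · by_cases hap : ∃ b : lˣ, b ^ p = a
    · obtain ⟨b, rfl⟩ := hap
      exact symF_pow_left _ _ inv b x
    · push Not at hap
      obtain ⟨i, y, h⟩ := exists_eq_pow_mul_pow_of_unit l hp.out hqp hξ ha hx hap
      exact symF_eq_one_of_eq _ _ hp2 inv h

/-- The arithmetic inputs for totally complex fields. -/
theorem inputs : Inputs.{0} p := inputs_of_locH2 unitMem CFTLocal.locH2_all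

/-- **Hasse norm theorem**, `K` totally complex, `K(a^{1/p})/K`. -/
theorem hasse_norm_all {K : Type} [Field K] [NumberField K] [IsTotallyComplex K] {ζ : K}
    (hζ : IsPrimitiveRoot ζ p) (LS : LocalSymbols p K) {a : Kˣ} (hna : ∀ b : Kˣ, b ^ p ≠ a)
    (x : Kˣ) (hx : ∀ v, LS.sym v a x = 1) : IsNormFrom p a x :=
  hasse_norm inputs LS hζ hna x hx

/-- **Hasse principle for `H²(G_K, ℤ/p)`**, `K ∋ ζ_p` totally complex. -/
theorem hasse_principle_all (K : IntermediateField ℚ (AlgebraicClosure ℚ))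
    [FiniteDimensional ℚ K] [IsTotallyComplex K] {ζ : K} (hζ : IsPrimitiveRoot ζ p)
    (x : H2 (lev K) (Bridge.triv p K.fixingSubgroup))
    (hx : ∀ (q : ℕ) [Fact q.Prime] (g : GamQ), resW K q g x = 0) : x = 0 :=
  hasse_principle unitMem CFTLocal.locH2_all K hζ x hx

variable {K : IntermediateField ℚ (AlgebraicClosure ℚ)} [FiniteDimensional ℚ K]

/-- **The image of `H²(G_K, ℤ/p)`**, `K ∋ ζ_p` totally complex. -/
theorem exists_reciprocity_all [IsTotallyComplex K] {ζ : K} (hζ : IsPrimitiveRoot ζ p) :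
    ∃ c : HeightOneSpectrum (𝓞 K) → ZMod p, (∀ v, c v ≠ 0) ∧
    ∀ t : HeightOneSpectrum (𝓞 K) →₀ ZMod p,
      (∃ x, invVec CFTLocal.locH2_all hζ x = t) ↔ t.sum (fun v n => c v * n) = 0 :=
  exists_reciprocity unitMem CFTLocal.locH2_all hζ

end Fermat.Agent.CFT.Global2
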