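import Fermat.Agent.CFT.Global.FirstIneq
import Mathlib.NumberTheory.NumberField.InfinitePlace.TotallyRealComplex

/-!
# The first inequality for totally complex fields (all primes `p`, in particular `p = 2`)
-/

set_option autoImplicit false
set_option linter.unusedSectionVars false

namespace Fermat.Agent.CFT.Global2

universe u

open IsDedekindDomain NumberField WithZero Global SUnits Places KummerExt IntermediateField ChevMul
open FirstIneq

/-- `[K : ℚ] = 2 (rank + 1)` for a totally complex field. -/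
lemma finrank_eq_two_mul_rank (K : Type*) [Field K] [NumberField K] [IsTotallyComplex K] :
    Module.finrank ℚ K = 2 * (Units.rank K + 1) := by
  have h1 := IsTotallyComplex.finrank K
  have h2 : InfinitePlace.nrRealPlaces K = 0 := IsTotallyComplex.nrRealPlaces_eq_zero K
  have h3 : InfinitePlace.nrRealPlaces K + InfinitePlace.nrComplexPlaces K =
      Fintype.card (InfinitePlace K) := (InfinitePlace.card_eq_nrRealPlaces_add_nrComplexPlaces K).symm
  have h4 : 0 < Fintype.card (InfinitePlace K) := Fintype.card_pos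
  rw [Units.rank]
  omega

section Main

variable {K : Type*} [Field K] [NumberField K] {L : Type*} [Field L] [NumberField L] [Algebra K L]

variable {p : ℕ} (hp : p.Prime) {ζ : K} (hζ : IsPrimitiveRoot ζ p)
  {S : Finset (HeightOneSpectrum (𝓞 K))}
  (hSp : AboveP p S) (hCl : ClTrivial S) {a : Kˣ} (haS : a ∈ E S) (ha : ∀ b : Kˣ, b ^ p ≠ a)
  {α : L} (hα : α ^ p = algebraMap K L a) (hL : K⟮α⟯ = ⊤)

include hp hζ hSp hCl haS ha hα hL in
open Classical in
theorem first_inequality (r1 : Module.finrank ℚ K = 2 * (Units.rank K + 1))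
    (r2 : Module.finrank ℚ L = 2 * (Units.rank L + 1)) :
    (normUnits L S).relIndex (E S) ∣ p ^ ((S.filter (fun v => a ∉ locPow p v)).card - 1) ∧
    1 ≤ (S.filter (fun v => a ∉ locPow p v)).card := by
  have ha' : ∀ b : K, b ^ p ≠ (a : K) := by
    intro b hb
    have hb0 : b ≠ 0 := by
      rintro rfl
      rw [zero_pow hp.ne_zero] at hb
      exact a.ne_zero hb.symm
    exact ha (Units.mk0 b hb0) (Units.ext (by simpa using hb))
  obtain ⟨hgal, σ, hσ, hgen, hord⟩ := exists_gen hp hζ ha' hα hL
  have hfd := finiteDimensional hp ha' hα hL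
  have hcard : Nat.card (L ≃ₐ[K] L) = p := by
    rw [IsGalois.card_aut_eq_finrank, finrank_eq hp ha' hα hL]
  have hζL := hζ.map_of_injective (algebraMap K L).injective
  set σ' : Monoid.End Lˣ := galEnd σ with hσ'
  have hU : ∀ x ∈ E (above L S), σ' x ∈ E (above L S) := fun x hx => map_mem_E σ hx
  have hσp : ∀ x ∈ E (above L S), (σ' ^ p) x = x := by
    intro x _
    apply Units.ext
    rw [hσ', galEnd_pow_apply, ← hord, pow_orderOf_eq_one]
    rfl
  have hnrm : ∀ x : Lˣ, nrm p σ' x = jU K L (normU L x) := by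
    intro x
    apply Units.ext
    rw [nrm_apply, Units.coe_prod]
    have : ∀ i ∈ Finset.range p, (((σ' ^ i) x : Lˣ) : L) = (σ ^ i) (x : L) :=
      fun i _ => galEnd_pow_apply σ i x
    rw [Finset.prod_congr rfl this, ← norm_eq_prod_pow hgen hord]
    rfl
  have hfix : fixedIn (E (above L S)) σ' = (E S).map (jU K L) := by
    ext x
    rw [mem_fixedIn, Subgroup.mem_map]
    constructor
    · rintro ⟨hx, hxσ⟩
      have h1 : ∀ τ : L ≃ₐ[K] L, τ (x : L) = x := by
        intro τ
        have h2 : σ (x : L) = x := congrArg Units.val hxσ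
        have h3 : σ ∈ MulAction.stabilizer (L ≃ₐ[K] L) (x : L) := h2
        have h4 : Subgroup.zpowers σ ≤ MulAction.stabilizer (L ≃ₐ[K] L) (x : L) :=
          Subgroup.zpowers_le.mpr h3
        exact h4 (hgen τ)
      obtain ⟨y, hy⟩ := (IsGalois.mem_range_algebraMap_iff_fixed (F := K) (x : L)).mpr h1
      have hy0 : y ≠ 0 := by
        rintro rfl
        rw [map_zero] at hy
        exact x.ne_zero hy.symm
      have hyx : jU K L (Units.mk0 y hy0) = x := Units.ext hy
      refine ⟨Units.mk0 y hy0, ?_, hyx⟩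
      rw [← jU_mem_E_iff (L := L), hyx]
      exact hx
    · rintro ⟨y, hy, rfl⟩
      refine ⟨jU_mem_E_iff.mpr hy, ?_⟩
      apply Units.ext
      exact σ.commutes (y : K)
  have hker : Nat.card (torsIn p (E (above L S))) = p := card_torsIn_E _ hp.ne_zero hζL
  have hidx : ((E (above L S)).map (powMonoidHom p)).relIndex (E (above L S)) =
      p ^ (Units.rank L + 1 + (above L S).card) := relIndex_pow_E _ hp.ne_zero hζL
  have key := chevalley_of_H1 p (E (above L S)) σ' hU hp hσp
    (by rw [hker]; exact hp.ne_zero) (by rw [hidx]; exact pow_ne_zero _ hp.ne_zero) (by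
      intro x hx hN
      refine exists_div_of_norm_eq_one hp hζ hSp hCl haS hα hL hσ hord hx ?_
      have h1 := congrArg Units.val hN
      rw [nrm_apply, Units.coe_prod] at h1
      have : ∀ i ∈ Finset.range p, (((σ' ^ i) x : Lˣ) : L) = (σ ^ i) (x : L) :=
        fun i _ => galEnd_pow_apply σ i x
      rw [Finset.prod_congr rfl this] at h1
      exact h1)
  have e1 : (E (above L S)).map (nrm p σ') = (normUnits L S).map (jU K L) := by
    rw [normUnits, Subgroup.map_map]
    ext x
    rw [Subgroup.mem_map, Subgroup.mem_map]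
    constructor
    · rintro ⟨y, hy, rfl⟩; exact ⟨y, hy, (hnrm y).symm⟩
    · rintro ⟨y, hy, rfl⟩; exact ⟨y, hy, hnrm y⟩
  have e2 : ((E (above L S)).map (nrm p σ')).relIndex (fixedIn (E (above L S)) σ') =
      (normUnits L S).relIndex (E S) := by
    rw [e1, hfix, Subgroup.relIndex_map_map_of_injective _ _ jU_injective]
  have e3 : ((fixedIn (E (above L S)) σ').map (powMonoidHom p)).relIndex
      (fixedIn (E (above L S)) σ') = p ^ (Units.rank K + 1 + S.card) := by
    have h1 : ((E S).map (jU K L)).map (powMonoidHom p) =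
        ((E S).map (powMonoidHom p)).map (jU K L) := by
      rw [Subgroup.map_map, Subgroup.map_map]
      congr 1
      ext x
      simp
    rw [hfix, h1, Subgroup.relIndex_map_map_of_injective _ _ jU_injective,
      relIndex_pow_E S hp.ne_zero hζ]
  have e4 : Nat.card (torsIn p (fixedIn (E (above L S)) σ')) = p := by
    have h1 : torsIn p (fixedIn (E (above L S)) σ') = (torsIn p (E S)).map (jU K L) := by
      rw [hfix]
      ext x
      rw [mem_torsIn, Subgroup.mem_map, Subgroup.mem_map]
      constructor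
      · rintro ⟨⟨y, hy, rfl⟩, hx⟩
        refine ⟨y, mem_torsIn p |>.mpr ⟨hy, jU_injective (L := L) ?_⟩, rfl⟩
        rw [map_pow, hx, map_one]
      · rintro ⟨y, hy, rfl⟩
        obtain ⟨hy1, hy2⟩ := (mem_torsIn p).mp hy
        exact ⟨⟨y, hy1, rfl⟩, by rw [← map_pow, hy2, map_one]⟩
    rw [h1, ← Nat.card_congr ((torsIn p (E S)).equivMapOfInjective (jU K L) jU_injective).toEquiv]
    exact card_torsIn_E S hp.ne_zero hζ
  rw [e2, e3, e4, hidx, hker] at key
  -- ranks
  have r3 : Module.finrank ℚ K * Module.finrank K L = Module.finrank ℚ L :=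
    Module.finrank_mul_finrank ℚ K L
  rw [finrank_eq hp ha' hα hL, r1, r2] at r3
  have r4 : Units.rank L + 1 = p * (Units.rank K + 1) := by
    have : 2 * (Units.rank L + 1) = 2 * (p * (Units.rank K + 1)) := by rw [← r3]; ring
    omega
  have hge := card_above_ge hp hζ hα S hσ hcard
  rw [r4] at key
  generalize (normUnits L S).relIndex (E S) = h at *
  generalize (S.filter (fun v => a ∉ locPow p v)).card = c at *
  generalize (above L S).card = A at *
  generalize Units.rank K + 1 = r at *
  generalize S.card = s at *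
  obtain ⟨e, he⟩ := Nat.exists_eq_add_of_le hge
  obtain ⟨q, rfl⟩ : ∃ q, p = q + 1 := ⟨p - 1, by have := hp.pos; omega⟩
  simp only [Nat.add_sub_cancel] at *
  have hpp : 0 < q + 1 := hp.pos
  have key2 : h ^ q * ((q + 1) ^ (q + e)) = ((q + 1) ^ c) ^ q := by
    have hpos : 0 < (q + 1) ^ ((q + 1) * r + (q + 1) * s + 1) := pow_pos hpp _
    apply Nat.eq_of_mul_eq_mul_right hpos
    calc h ^ q * (q + 1) ^ (q + e) * (q + 1) ^ ((q + 1) * r + (q + 1) * s + 1)
        = h ^ q * (q + 1) ^ ((q + 1) + ((q + 1) * r + ((q + 1) * s + e))) := by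
          rw [mul_assoc, ← pow_add]; congr 2; ring
      _ = h ^ q * (q + 1) ^ ((q + 1) + ((q + 1) * r + (A + q * c))) := by rw [← he]
      _ = (h ^ q * (q + 1) ^ (q + 1) * (q + 1) ^ ((q + 1) * r + A)) * (q + 1) ^ (q * c) := by
          rw [mul_assoc, mul_assoc, ← pow_add, ← pow_add]; congr 2; ring
      _ = ((q + 1) ^ (r + s)) ^ (q + 1) * (q + 1) * (q + 1) ^ (q * c) := by rw [key]
      _ = _ := by ring
  have key3 : (h * (q + 1)) ^ q ∣ ((q + 1) ^ c) ^ q := by
    rw [← key2, mul_pow, pow_add, ← mul_assoc]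
    exact Dvd.intro _ rfl
  have hq0 : q ≠ 0 := by
    have := hp.two_le
    omega
  have key4 := (Nat.pow_dvd_pow_iff hq0).mp key3
  have hc : 1 ≤ c := by
    by_contra hc
    have : c = 0 := by omega
    rw [this, pow_zero, Nat.dvd_one] at key4
    have := Nat.eq_one_of_mul_eq_one_left key4
    omega
  refine ⟨?_, hc⟩
  obtain ⟨d, rfl⟩ : ∃ d, c = d + 1 := ⟨c - 1, by omega⟩
  rw [pow_succ] at key4
  simp only [Nat.add_sub_cancel]
  exact Nat.dvd_of_mul_dvd_mul_right hpp key4

end Main

open Classical in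
/-- **The statement of the first inequality** for totally complex fields. -/
def FirstInequality (p : ℕ) : Prop :=
  ∀ (K : Type u) [Field K] [NumberField K] [IsTotallyComplex K] (ζ : K), IsPrimitiveRoot ζ p →
  ∀ S : Finset (HeightOneSpectrum (𝓞 K)), AboveP p S → ClTrivial S →
  ∀ a : Kˣ, a ∈ E S → (∀ b : Kˣ, b ^ p ≠ a) →
  ∀ (L : Type u) [Field L] [NumberField L] [Algebra K L] (α : L),
    α ^ p = algebraMap K L a → IntermediateField.adjoin K {α} = ⊤ →
  (normUnits L S).relIndex (E S) ∣ p ^ ((S.filter (fun v => a ∉ locPow p v)).card - 1) ∧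
    1 ≤ (S.filter (fun v => a ∉ locPow p v)).card

/-- The first inequality in the shared form. -/
theorem firstInequality {p : ℕ} (hp : p.Prime) : FirstInequality.{u} p := by
  intro K _ _ _ ζ hζ S hSp hCl a haS ha L _ _ _ α hα hL
  have := isTotallyComplex_of_algebra K L
  exact first_inequality hp hζ hSp hCl haS ha hα hL (finrank_eq_two_mul_rank K)
    (finrank_eq_two_mul_rank L)

end Fermat.Agent.CFT.Global2
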