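import Fermat.Agent.CFT.Global.Second
import Fermat.Agent.CFT.Global2.FirstIneq2

/-!
# The second inequality and the Hasse norm theorem (Kummer case, degree `p`), for totally complex
fields (all primes `p`)
-/

set_option autoImplicit false
set_option linter.unusedSectionVars false

namespace Fermat.Agent.CFT.Global2

open IsDedekindDomain NumberField WithZero Polynomial
open Fermat.Agent.CFT.SUnits (ord ord_one ord_mul ord_inv ord_pow ord_div ord_eq_zero_iff
  valuation_eq_exp_neg_ord finite_ord_ne_zero)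
open Fermat.Agent.CFT.Global hiding Inputs p_dvd_index exists_notMem_locPow exists_place powE mem_powE index_powE index_zpowers_sup_powE second hasse_norm FirstInequality

universe u

/-- The arithmetic inputs of the global theory. -/
structure Inputs (p : ℕ) : Prop where
  prime : p.Prime
  firstIneq : FirstInequality.{u} p
  localCount : LocalCount.{u} p
  symbols : ∀ (F : Type u) [Field F] [NumberField F] [IsTotallyComplex F] (ζ : F), IsPrimitiveRoot ζ p →
    Nonempty (LocalSymbols p F)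

section Main

variable {K : Type u} [Field K] [NumberField K] [IsTotallyComplex K] {p : ℕ}

/-- First inequality for the cokernel. -/
theorem p_dvd_index (In : Inputs.{u} p) (LS : LocalSymbols p K) {ζ : K}
    (hζ : IsPrimitiveRoot ζ p) {S : Finset (HeightOneSpectrum (𝓞 K))} (hS : AboveP p S)
    (hcl : ClTrivial S) {a : Kˣ} (ha : a ∈ E S) (hna : ∀ b : Kˣ, b ^ p ≠ a) :
    p ∣ ((⨅ v ∈ S, LS.N v a) ⊔ E S).index := by
  classical
  have hp := In.prime
  have : Fact (Irreducible (X ^ p - C (a : K))) := ⟨irreducible_of_not_pow hp hna⟩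
  have : NumberField (Rad p a) := numberField_rad hp
  obtain ⟨h1, h2⟩ := In.firstIneq K ζ hζ S hS hcl a ha hna (Rad p a) (AdjoinRoot.root _)
    (root_X_pow_sub_C_pow p (a : K)) (adjoin_root_rad p a)
  set c := (S.filter (fun v => a ∉ locPow p v)).card with hc
  set N := ⨅ v ∈ S, LS.N v a with hN
  have h3 : N.index = p ^ c := LS.index_iInf_N hp S a
  have h4 : N.relIndex (E S) ∣ p ^ (c - 1) :=
    (Subgroup.relIndex_dvd_of_le_left (E S) (LS.normUnits_le S S a)).trans h1
  have h5 : N.relIndex (E S) * (N ⊔ E S).index = p ^ c := by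
    rw [← Subgroup.relIndex_sup_left (E S) N, Subgroup.relIndex_mul_index le_sup_left, h3]
  obtain ⟨d, hd⟩ := h4
  have hne : N.relIndex (E S) ≠ 0 := by
    intro h
    rw [h, zero_mul] at h5
    exact pow_ne_zero _ hp.ne_zero h5.symm
  obtain ⟨k, hk⟩ : ∃ k, c = k + 1 := ⟨c - 1, by omega⟩
  rw [hk, Nat.add_sub_cancel] at hd
  rw [hk, pow_succ, hd, mul_assoc] at h5
  refine ⟨d, ?_⟩
  rw [mul_comm p d]
  exact Nat.eq_of_mul_eq_mul_left (Nat.pos_of_ne_zero hne) h5

/-- An element which is a local `p`-th power at almost all places is a `p`-th power. -/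
theorem exists_notMem_locPow (In : Inputs.{u} p) {ζ : K} (hζ : IsPrimitiveRoot ζ p)
    (S₀ : Finset (HeightOneSpectrum (𝓞 K))) {a : Kˣ} (hna : ∀ b : Kˣ, b ^ p ≠ a) :
    ∃ v ∉ S₀, a ∉ locPow p v := by
  classical
  by_contra hcon
  push Not at hcon
  have hp := In.prime
  obtain ⟨LS⟩ := In.symbols K ζ hζ
  set M := ⨅ v ∈ S₀, LS.N v a with hM
  have hMi : M.index ≠ 0 := by
    rw [LS.index_iInf_N hp S₀ a]
    exact pow_ne_zero _ hp.ne_zero
  have hfin : Finite (Kˣ ⧸ M) := Nat.finite_of_card_ne_zero hMi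
  have := Fintype.ofFinite (Kˣ ⧸ M)
  choose g hg using QuotientGroup.mk_surjective (s := M)
  obtain ⟨S, hS₀, hSp, hcl, hF⟩ := exists_good p hp.ne_zero S₀ (insert a (Finset.univ.image g))
  have h1 := p_dvd_index In LS hζ hSp hcl (hF a (Finset.mem_insert_self _ _)) hna
  have h2 : M ≤ ⨅ v ∈ S, LS.N v a := by
    refine le_iInf₂ fun v hv => ?_
    by_cases h : v ∈ S₀
    · exact iInf₂_le v h
    · rw [LS.N_eq_top (hcon v h)]
      exact le_top
  have h3 : (⨅ v ∈ S, LS.N v a) ⊔ E S = ⊤ := by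
    rw [eq_top_iff]
    intro x _
    have hx : g (x : Kˣ ⧸ M) ∈ E S :=
      hF _ (Finset.mem_insert_of_mem (Finset.mem_image_of_mem _ (Finset.mem_univ _)))
    have hx2 : (g (x : Kˣ ⧸ M))⁻¹ * x ∈ M := by
      rw [← QuotientGroup.eq]
      exact hg _
    refine Subgroup.mem_sup.mpr ⟨_, h2 hx2, _, hx, ?_⟩
    rw [mul_comm, mul_inv_cancel_left]
  rw [h3, Subgroup.index_top] at h1
  exact hp.one_lt.ne' (Nat.dvd_one.mp h1)

/-- Existence of Kummer-split places at which a given unit is not a local `p`-th power. -/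
theorem exists_place (In : Inputs.{u} p) {ζ : K} (hζ : IsPrimitiveRoot ζ p)
    {S : Finset (HeightOneSpectrum (𝓞 K))} (hS : AboveP p S) {a x : Kˣ} (ha : a ∈ E S)
    (hna : ∀ b : Kˣ, b ^ p ≠ a) (hx : x ∈ E S)
    (hxa : ∀ (k : ℕ) (b : Kˣ), x ≠ a ^ k * b ^ p) :
    ∃ v ∉ S, a ∈ locPow p v ∧ x ∉ locPow p v := by
  have hp := In.prime
  have : Fact (Irreducible (X ^ p - C (a : K))) := ⟨irreducible_of_not_pow hp hna⟩
  have : NumberField (Rad p a) := numberField_rad hp
  have : IsTotallyComplex (Rad p a) := isTotallyComplex_of_algebra K (Rad p a)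
  let ι : Kˣ →* (Rad p a)ˣ := Units.map (algebraMap K (Rad p a) : K →* Rad p a)
  have hζL : IsPrimitiveRoot (algebraMap K (Rad p a) ζ) p :=
    hζ.map_of_injective (algebraMap K (Rad p a)).injective
  obtain ⟨w, hw, hxw⟩ := exists_notMem_locPow In hζL (above (Rad p a) S) (a := ι x) (by
    intro β hβ
    obtain ⟨k, b, hkb⟩ := exists_eq_pow_mul_pow hp hζ (a := a) (β : Rad p a) x
      (by rw [← Units.val_pow_eq_pow_val, hβ]; rfl)
    exact hxa k b hkb)
  set v := w.under (𝓞 K) with hv
  have hvS : v ∉ S := fun h => hw ((mem_above (Rad p a)).mpr h)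
  have hxv : x ∉ locPow p v := fun h => hxw (map_mem_locPow p w h)
  refine ⟨v, hvS, ?_, hxv⟩
  by_contra hav
  apply hxw
  have hvp : (p : 𝓞 K) ∉ v.asIdeal := fun h => hvS (hS v h)
  have h1 := unitsAt_le hp In.localCount hζ v hvp (Subgroup.zpowers a)
    (by rw [Subgroup.zpowers_le]; exact mem_E.mp ha v hvS)
    (by rw [Subgroup.zpowers_le]; exact hav)
  obtain ⟨y, hy, z, hz, hyz⟩ := Subgroup.mem_sup.mp (h1 (mem_E.mp hx v hvS : x ∈ unitsAt v))
  obtain ⟨k, rfl⟩ := Subgroup.mem_zpowers_iff.mp hz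
  have hα : (AdjoinRoot.root (X ^ p - C (a : K)) : Rad p a) ^ p =
      algebraMap K (Rad p a) (a : K) := root_X_pow_sub_C_pow p (a : K)
  have hα0 : (AdjoinRoot.root (X ^ p - C (a : K)) : Rad p a) ≠ 0 := by
    intro h
    rw [h, zero_pow hp.ne_zero] at hα
    exact a.ne_zero ((map_eq_zero (algebraMap K (Rad p a))).mp hα.symm)
  have hιa : ι a ∈ locPow p w := by
    have : ι a = Units.mk0 _ hα0 ^ p := by
      ext
      exact hα.symm
    rw [this]
    exact pow_mem_locPow p w _
  have : ι x = ι y * ι a ^ k := by rw [← hyz, map_mul, map_zpow]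
  change ι x ∈ locPow p w
  rw [this]
  exact mul_mem (map_mem_locPow p w hy) (zpow_mem hιa k)

/-- The subgroup of `p`-th powers of `E S`. -/
noncomputable abbrev powE (p : ℕ) (S : Finset (HeightOneSpectrum (𝓞 K))) : Subgroup (E S) :=
  (powMonoidHom p : E S →* E S).range

lemma mem_powE {S : Finset (HeightOneSpectrum (𝓞 K))} (hp : p.Prime) {x : E S} :
    x ∈ powE p S ↔ ∃ b : Kˣ, b ^ p = x := by
  constructor
  · rintro ⟨y, rfl⟩
    exact ⟨y, rfl⟩
  · rintro ⟨b, hb⟩
    have hbE : b ∈ E S := by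
      rw [mem_E]
      intro v hv
      have h1 := mem_E.mp x.2 v hv
      rw [← hb, ord_pow] at h1
      rcases mul_eq_zero.mp h1 with h | h
      · exact absurd (by exact_mod_cast h) hp.ne_zero
      · exact h
    exact ⟨⟨b, hbE⟩, Subtype.ext hb⟩

lemma index_powE (hp : p.Prime) {ζ : K} (hζ : IsPrimitiveRoot ζ p)
    (S : Finset (HeightOneSpectrum (𝓞 K))) :
    (powE p S).index = p ^ (Units.rank K + 1 + S.card) :=
  SUnits.index_pow_sunits_of_isPrimitiveRoot S hp.ne_zero hζ

/-- `[E_S : <a> E_S^p] = p ^ (rank + #S)`. -/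
lemma index_zpowers_sup_powE (hp : p.Prime) {ζ : K} (hζ : IsPrimitiveRoot ζ p)
    (S : Finset (HeightOneSpectrum (𝓞 K))) {a : E S} (hna : ∀ b : Kˣ, b ^ p ≠ a) :
    (Subgroup.zpowers a ⊔ powE p S).index = p ^ (Units.rank K + S.card) := by
  have h1 := Subgroup.relIndex_mul_index (le_sup_right : powE p S ≤ Subgroup.zpowers a ⊔ powE p S)
  rw [index_powE hp hζ, Subgroup.relIndex_sup_right] at h1
  have h2 : (powE p S).relIndex (Subgroup.zpowers a) = p := by
    have h3 : (QuotientGroup.mk' (powE p S)).ker.relIndex (Subgroup.zpowers a) = p := by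
      rw [Subgroup.relIndex_ker, MonoidHom.map_zpowers, Nat.card_zpowers]
      refine orderOf_eq_prime_iff (p := p) (hp := ⟨hp⟩) |>.mpr ⟨?_, ?_⟩
      · rw [← map_pow]
        change ((a ^ p : E S) : E S ⧸ powE p S) = 1
        rw [QuotientGroup.eq_one_iff]
        exact ⟨a, rfl⟩
      · change ¬ (((a : E S) : E S ⧸ powE p S) = 1)
        rw [QuotientGroup.eq_one_iff, mem_powE hp]
        rintro ⟨b, hb⟩
        exact hna b hb
    rwa [QuotientGroup.ker_mk'] at h3
  rw [h2, show Units.rank K + 1 + S.card = (Units.rank K + S.card) + 1 by ring, pow_succ,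
    mul_comm] at h1
  exact Nat.eq_of_mul_eq_mul_right hp.pos h1

/-- **Second inequality** and Hasse norm theorem for `S`-units, for arbitrarily large `S`. -/
theorem second (In : Inputs.{u} p) (LS : LocalSymbols p K) {ζ : K} (hζ : IsPrimitiveRoot ζ p)
    (S₀ : Finset (HeightOneSpectrum (𝓞 K))) (F : Finset Kˣ) {a : Kˣ}
    (hna : ∀ b : Kˣ, b ^ p ≠ a) [Fact (Irreducible (X ^ p - C (a : K)))]
    [NumberField (Rad p a)] :
    ∃ S : Finset (HeightOneSpectrum (𝓞 K)), S₀ ⊆ S ∧ AboveP p S ∧ ClTrivial S ∧ a ∈ E S ∧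
      (∀ x ∈ F, x ∈ E S) ∧ ((⨅ v ∈ S, LS.N v a) ⊔ E S).index = p ∧
      ∀ x ∈ E S, (∀ v ∈ S, LS.sym v a x = 1) → x ∈ normUnits (Rad p a) S := by
  classical
  have hp := In.prime
  obtain ⟨S, hS₀, hSp, hcl, hF⟩ := exists_good p hp.ne_zero S₀ (insert a F)
  have haS : a ∈ E S := hF a (Finset.mem_insert_self _ _)
  set r := Units.rank K + S.card with hr
  have hn : Module.finrank ℚ K = 2 * (Units.rank K + 1) := finrank_eq_two_mul_rank K
  have hnotp : ∀ v ∉ S, (p : 𝓞 K) ∉ v.asIdeal := fun v hv h => hv (hSp v h)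
  have hEunits : ∀ v ∉ S, E S ≤ unitsAt v := fun v hv x hx => mem_E.mp hx v hv
  -- the set of places
  let I : Set (HeightOneSpectrum (𝓞 K)) := {v | v ∉ S ∧ a ∈ locPow p v}
  let H : HeightOneSpectrum (𝓞 K) → Subgroup (E S) := fun v => (locPow p v).subgroupOf (E S)
  obtain ⟨T, hTI, hTc, -, hTp, hTind⟩ := exists_select hp I H (fun v hv => by
      have h1 : ((locPow p v).subgroupOf (unitsAt v)).relIndex ((E S).subgroupOf (unitsAt v)) ∣
          ((locPow p v).subgroupOf (unitsAt v)).index :=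
        Subgroup.relIndex_dvd_index_of_normal _ _
      rw [Subgroup.relIndex_subgroupOf (hEunits v hv.1)] at h1
      have h2 := relIndex_locPow_unitsAt hp In.localCount hζ v (hnotp v hv.1)
      rw [Subgroup.relIndex] at h2
      rwa [h2] at h1)
    (Subgroup.zpowers (⟨a, haS⟩ : E S) ⊔ powE p S) r
    (index_zpowers_sup_powE hp hζ S (a := ⟨a, haS⟩) hna)
    (fun v hv => by
      refine sup_le ?_ ?_
      · rw [Subgroup.zpowers_le]
        exact hv.2
      · rintro _ ⟨y, rfl⟩
        exact pow_mem_locPow p v y)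
    (fun x hx => by
      by_contra hxn
      obtain ⟨v, hv, hav, hxv⟩ := exists_place In hζ hSp haS hna x.2 (fun k b hkb => by
        apply hxn
        have hb : (x / (⟨a, haS⟩ : E S) ^ k) ∈ powE p S := by
          rw [mem_powE hp]
          refine ⟨b, ?_⟩
          push_cast
          rw [hkb, mul_div_cancel_left]
        refine Subgroup.mem_sup.mpr ⟨_, Subgroup.pow_mem _ (Subgroup.mem_zpowers _) k, _, hb, ?_⟩
        rw [mul_div_cancel])
      exact hxv (hx v ⟨hv, hav⟩))
  have hTS : ∀ v ∈ T, v ∉ S := fun v hv => (hTI hv).1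
  have haT : ∀ v ∈ T, a ∈ locPow p v := fun v hv => (hTI hv).2
  have hdisj : Disjoint S T := by
    rw [Finset.disjoint_right]
    exact hTS
  -- the enlarged set
  set S' := S ∪ T with hS'
  have hSS' : S ⊆ S' := Finset.subset_union_left
  have hS'p : AboveP p S' := fun v hv => hSS' (hSp v hv)
  have hcl' : ClTrivial S' := hcl.mono hSS'
  have haS' : a ∈ E S' := E_mono hSS' haS
  have hS'c : S'.card = S.card + r := by rw [hS', Finset.card_union_of_disjoint hdisj, hTc]
  -- `E S' → ∏_{v ∈ T} K_v^*/p` is surjective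
  have hsurj : (⨅ v ∈ T, locPow p v) ⊔ E S' = ⊤ := by
    rw [eq_top_iff]
    intro x _
    obtain ⟨b, hb⟩ := hcl (∑ v ∈ T, Finsupp.single v (ord v x))
    have hbS' : b ∈ E S' := by
      rw [mem_E]
      intro v hv
      rw [hS', Finset.mem_union, not_or] at hv
      rw [hb v hv.1, Finsupp.finsetSum_apply]
      refine Finset.sum_eq_zero fun w hw => ?_
      rw [Finsupp.single_eq_of_ne]
      rintro rfl
      exact hv.2 hw
    have hbT : ∀ v ∈ T, ord v (x / b) = 0 := by
      intro v hv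
      rw [ord_div, hb v (hTS v hv), Finsupp.finsetSum_apply,
        Finset.sum_eq_single_of_mem v hv (fun w _ hwv => by
          rw [Finsupp.single_eq_of_ne (Ne.symm hwv)])]
      simp
    have hdec : ∀ v ∈ T, ∃ e : E S, (x / b) / (e : Kˣ) ∈ locPow p v := by
      intro v hv
      have h1 := unitsAt_le hp In.localCount hζ v (hnotp v (hTS v hv)) (E S)
        (hEunits v (hTS v hv)) (by
          intro h
          have h2 := hTp v hv
          have h3 : H v = ⊤ := by
            rw [eq_top_iff]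
            exact fun y _ => h y.2
          rw [h3, Subgroup.index_top] at h2
          exact hp.one_lt.ne h2)
      obtain ⟨l, hl, e, he, hle⟩ := Subgroup.mem_sup.mp (h1 (hbT v hv : x / b ∈ unitsAt v))
      refine ⟨⟨e, he⟩, ?_⟩
      rw [← hle]
      simpa using hl
    choose! f hf using hdec
    obtain ⟨e, he⟩ := hTind f
    refine Subgroup.mem_sup.mpr ⟨x / b / (e : Kˣ), ?_, b * (e : Kˣ),
      mul_mem hbS' (E_mono hSS' e.2), ?_⟩
    · simp only [Subgroup.mem_iInf]
      intro v hv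
      have h1 := hf v hv
      have h2 : ((e / f v : E S) : Kˣ) ∈ locPow p v := he v hv
      have : x / b / (e : Kˣ) = (x / b / (f v : Kˣ)) / ((e / f v : E S) : Kˣ) := by
        push_cast
        rw [div_div_div_cancel_right]
      rw [this]
      exact div_mem h1 h2
    · rw [div_div, div_mul_cancel]
  -- `p`-th powers at `S` inside `E S'`
  have hY : (⨅ v ∈ S, locPow p v).subgroupOf (E S') = powE p S' := by
    ext y
    rw [Subgroup.mem_subgroupOf, mem_powE hp]
    constructor
    · intro hy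
      by_contra hcon
      push Not at hcon
      have h1 := p_dvd_index In LS hζ hS'p hcl' y.2 hcon
      have h2 : (⨅ v ∈ T, locPow p v) ≤ ⨅ v ∈ S', LS.N v (y : Kˣ) := by
        refine le_iInf₂ fun v hv => ?_
        rcases Finset.mem_union.mp hv with hv | hv
        · rw [LS.N_eq_top (by
            simp only [Subgroup.mem_iInf] at hy
            exact hy v hv)]
          exact le_top
        · exact (iInf₂_le v hv).trans (LS.locPow_le_N v _)
      have h3 : (⨅ v ∈ S', LS.N v (y : Kˣ)) ⊔ E S' = ⊤ := by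
        rw [eq_top_iff, ← hsurj]
        exact sup_le_sup_right h2 _
      rw [h3, Subgroup.index_top] at h1
      exact hp.one_lt.ne' (Nat.dvd_one.mp h1)
    · rintro ⟨b, hb⟩
      simp only [Subgroup.mem_iInf]
      intro v _
      rw [← hb]
      exact pow_mem_locPow p v b
  -- the count
  have hcount : ((⨅ v ∈ S, locPow p v) ⊔ E S').index = p := by
    have h1 := In.localCount K ζ hζ S hSp
    have h2 := Subgroup.relIndex_mul_index (le_sup_left :
      (⨅ v ∈ S, locPow p v) ≤ (⨅ v ∈ S, locPow p v) ⊔ E S')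
    have h3 : (⨅ v ∈ S, locPow p v).relIndex (E S') = p ^ (Units.rank K + 1 + S'.card) := by
      rw [Subgroup.relIndex, hY, index_powE hp hζ]
    rw [Subgroup.relIndex_sup_left, h3, h1, hS'c] at h2
    have e : 2 * S.card + Module.finrank ℚ K = (Units.rank K + 1 + (S.card + r)) + 1 := by
      omega
    rw [e, pow_succ p (Units.rank K + 1 + (S.card + r))] at h2
    exact Nat.eq_of_mul_eq_mul_left (Nat.pos_of_ne_zero (pow_ne_zero _ hp.ne_zero)) h2
  have hle : (⨅ v ∈ S, locPow p v) ≤ ⨅ v ∈ S', LS.N v a := by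
    refine le_iInf₂ fun v hv => ?_
    rcases Finset.mem_union.mp hv with hv | hv
    · exact (iInf₂_le v hv).trans (LS.locPow_le_N v _)
    · rw [LS.N_eq_top (haT v hv)]
      exact le_top
  have hidx : ((⨅ v ∈ S', LS.N v a) ⊔ E S').index = p := by
    have h1 := p_dvd_index In LS hζ hS'p hcl' haS' hna
    have h2 := Subgroup.index_dvd_of_le (sup_le_sup_right hle (E S'))
    rw [hcount] at h2
    exact Nat.dvd_antisymm h2 h1
  refine ⟨S', hS₀.trans hSS', hS'p, hcl', haS',
    fun x hx => E_mono hSS' (hF x (Finset.mem_insert_of_mem hx)), hidx, ?_⟩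
  -- Hasse norm theorem
  obtain ⟨h1, h2⟩ := In.firstIneq K ζ hζ S' hS'p hcl' a haS' hna (Rad p a) (AdjoinRoot.root _)
    (root_X_pow_sub_C_pow p (a : K)) (adjoin_root_rad p a)
  set c := (S'.filter (fun v => a ∉ locPow p v)).card with hc
  set N := ⨅ v ∈ S', LS.N v a with hN
  have h3 : N.index = p ^ c := LS.index_iInf_N hp S' a
  have h4 : N.relIndex (E S') = p ^ (c - 1) := by
    have h5 := Subgroup.relIndex_mul_index (le_sup_left : N ≤ N ⊔ E S')
    rw [Subgroup.relIndex_sup_left, hidx, h3] at h5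
    obtain ⟨k, hk⟩ : ∃ k, c = k + 1 := ⟨c - 1, by omega⟩
    rw [hk, pow_succ] at h5
    rw [hk, Nat.add_sub_cancel]
    exact Nat.eq_of_mul_eq_mul_right hp.pos h5
  have h5 := LS.normUnits_le S' S' a
  have h6 : N.relIndex (E S') ∣ (normUnits (Rad p a) S').relIndex (E S') :=
    Subgroup.relIndex_dvd_of_le_left (E S') h5
  rw [h4] at h6
  have h7 : (normUnits (Rad p a) S').relIndex (E S') = p ^ (c - 1) := Nat.dvd_antisymm h1 h6
  intro x hx hxs
  have hxN : x ∈ N := by
    simp only [hN, Subgroup.mem_iInf]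
    exact fun v hv => hxs v hv
  have h8 : (normUnits (Rad p a) S' ⊓ E S').relIndex (N ⊓ E S') = 1 := by
    have h9 := Subgroup.relIndex_mul_relIndex (normUnits (Rad p a) S' ⊓ E S') (N ⊓ E S') (E S')
      (inf_le_inf_right _ h5) inf_le_right
    rw [Subgroup.inf_relIndex_right, Subgroup.inf_relIndex_right, h7, h4] at h9
    exact Nat.eq_of_mul_eq_mul_right (Nat.pos_of_ne_zero (pow_ne_zero _ hp.ne_zero))
      (by rw [h9, one_mul])
  rw [Subgroup.relIndex_eq_one] at h8
  exact (h8 ⟨hxN, hx⟩).1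

/-- **Hasse norm theorem** for `K(a^{1/p})/K`. -/
theorem hasse_norm (In : Inputs.{u} p) (LS : LocalSymbols p K) {ζ : K}
    (hζ : IsPrimitiveRoot ζ p) {a : Kˣ} (hna : ∀ b : Kˣ, b ^ p ≠ a) (x : Kˣ)
    (hx : ∀ v, LS.sym v a x = 1) : IsNormFrom p a x := by
  have : Fact (Irreducible (X ^ p - C (a : K))) := ⟨irreducible_of_not_pow In.prime hna⟩
  have : NumberField (Rad p a) := numberField_rad In.prime
  obtain ⟨S, -, -, -, -, hF, -, hS⟩ := second In LS hζ ∅ {x} hna
  obtain ⟨z, -, hz⟩ := hS x (hF x (Finset.mem_singleton_self x)) (fun v _ => hx v)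
  exact ⟨(z : Rad p a), congrArg Units.val hz⟩

end Main

end Fermat.Agent.CFT.Global2
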