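import Fermat.Agent.CFT.Global.Functional
import Fermat.Agent.CFT.Global2.Second2

/-!
# The reciprocity functional (totally complex fields, all primes `p`)
-/

set_option autoImplicit false
set_option linter.unusedSectionVars false

namespace Fermat.Agent.CFT.Global2

open IsDedekindDomain NumberField WithZero Polynomial
open Fermat.Agent.CFT.SUnits (ord ord_one ord_mul ord_inv ord_pow ord_div ord_eq_zero_iff
  valuation_eq_exp_neg_ord finite_ord_ne_zero)
open Fermat.Agent.CFT.Global hiding Inputs p_dvd_index exists_notMem_locPow exists_place powE mem_powE index_powE index_zpowers_sup_powE second hasse_norm FirstInequality exists_eq_nsmul_add exists_ne_symVec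

universe u

section Vec

variable {K : Type u} [Field K] [NumberField K] [IsTotallyComplex K] {p : ℕ} (LS : LocalSymbols p K)

/-- `V_a / W_a` is cyclic of order `p` (1): generated by any element outside `W_a`. -/
theorem exists_eq_nsmul_add (In : Inputs.{u} p) {ζ : K} (hζ : IsPrimitiveRoot ζ p) {a : Kˣ}
    (hna : ∀ b : Kˣ, b ^ p ≠ a) (u t : HeightOneSpectrum (𝓞 K) →₀ ZMod p)
    (hu : ∀ v, a ∈ locPow p v → u v = 0) (ht : ∀ v, a ∈ locPow p v → t v = 0)
    (huW : ∀ x, u ≠ symVec LS In.prime.ne_zero a x) :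
    ∃ (k : ℕ) (x : Kˣ), t = k • u + symVec LS In.prime.ne_zero a x := by
  classical
  have hp := In.prime
  have : Fact (Irreducible (X ^ p - C (a : K))) := ⟨irreducible_of_not_pow hp hna⟩
  have : NumberField (Rad p a) := numberField_rad hp
  obtain ⟨S, hS₀, hSp, -, haS, -, hidx, -⟩ := second In LS hζ (u.support ∪ t.support) ∅ hna
  obtain ⟨z, hz⟩ := exists_approx LS hp a S u hu
  obtain ⟨y, hy⟩ := exists_approx LS hp a S t ht
  have hzJ : z ∉ (⨅ v ∈ S, LS.N v a) ⊔ E S := by
    intro h
    obtain ⟨x, -, hx⟩ := eq_symVec_of_mem LS hp.ne_zero hSp haS u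
      (Finset.subset_union_left.trans hS₀) z hz h
    exact huW x hx
  obtain ⟨k, hk⟩ := exists_div_mem_of_prime_index hp hidx hzJ y
  obtain ⟨x, -, hx⟩ := eq_symVec_of_mem LS hp.ne_zero hSp haS (t - k • u) (by
      refine (Finsupp.support_sub).trans (Finset.union_subset ?_ ?_)
      · exact Finset.subset_union_right.trans hS₀
      · exact (Finsupp.support_smul).trans (Finset.subset_union_left.trans hS₀))
    (y / z ^ k) (fun v hv => by
      rw [_root_.map_div, map_pow, toAdd_div, toAdd_pow, hz v hv, hy v hv]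
      rfl) hk
  exact ⟨k, x, by rw [← hx, add_sub_cancel]⟩

/-- `V_a / W_a` is cyclic of order `p` (2): it is nontrivial. -/
theorem exists_ne_symVec (In : Inputs.{u} p) {ζ : K} (hζ : IsPrimitiveRoot ζ p) {a : Kˣ}
    (hna : ∀ b : Kˣ, b ^ p ≠ a) :
    ∃ u : HeightOneSpectrum (𝓞 K) →₀ ZMod p, (∀ v, a ∈ locPow p v → u v = 0) ∧
      ∀ x, u ≠ symVec LS In.prime.ne_zero a x := by
  classical
  have hp := In.prime
  have : Fact (Irreducible (X ^ p - C (a : K))) := ⟨irreducible_of_not_pow hp hna⟩
  have : NumberField (Rad p a) := numberField_rad hp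
  obtain ⟨S, -, hSp, hcl, haS, -, hidx, -⟩ := second In LS hζ ∅ ∅ hna
  have hJ : (⨅ v ∈ S, LS.N v a) ⊔ E S ≠ ⊤ := by
    intro h
    rw [h, Subgroup.index_top] at hidx
    exact hp.one_lt.ne hidx
  obtain ⟨z, hzJ⟩ : ∃ z, z ∉ (⨅ v ∈ S, LS.N v a) ⊔ E S := by
    by_contra hcon
    push Not at hcon
    exact hJ (by rw [eq_top_iff]; exact fun x _ => hcon x)
  -- truncate the symbols of `z` to `S`
  let u : HeightOneSpectrum (𝓞 K) →₀ ZMod p := (symVec LS hp.ne_zero a z).filter (· ∈ S)
  have huv : ∀ v ∈ S, u v = (LS.sym v a z).toAdd := fun v hv => Finsupp.filter_apply_pos _ _ hv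
  have huv' : ∀ v ∉ S, u v = 0 := fun v hv => Finsupp.filter_apply_neg _ _ hv
  refine ⟨u, ?_, ?_⟩
  · intro v hv
    by_cases h : v ∈ S
    · rw [huv v h, LS.sym_eq_one_of_left hv]
      rfl
    · exact huv' v h
  · intro x hx
    -- a larger good set
    obtain ⟨S₁, hSS₁, hS₁p, -, haS₁, hF₁, hidx₁, -⟩ := second In LS hζ S {x} hna
    have hxS₁ : x ∈ E S₁ := hF₁ x (Finset.mem_singleton_self x)
    have hJ₁ : (⨅ v ∈ S₁, LS.N v a) ⊔ E S₁ ≠ ⊤ := by
      intro h
      rw [h, Subgroup.index_top] at hidx₁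
      exact hp.one_lt.ne hidx₁
    apply hJ₁
    rw [eq_top_iff]
    intro y _
    -- adjust `y` to be a unit at `S₁ \ S`
    obtain ⟨b, hb⟩ := hcl (∑ v ∈ S₁, Finsupp.single v (ord v y))
    have hbS₁ : b ∈ E S₁ := by
      rw [mem_E]
      intro v hv
      rw [hb v (fun h => hv (hSS₁ h)), Finsupp.finsetSum_apply]
      refine Finset.sum_eq_zero fun w hw => ?_
      rw [Finsupp.single_eq_of_ne]
      rintro rfl
      exact hv hw
    have hyb : ∀ v ∈ S₁, v ∉ S → LS.sym v a (y / b) = 1 := by
      intro v hv hvS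
      refine LS.unit_mem v (fun h => hvS (hSp v h)) a (y / b) (mem_E.mp haS v hvS) ?_
      rw [ord_div, hb v hvS, Finsupp.finsetSum_apply,
        Finset.sum_eq_single_of_mem v hv (fun w _ hwv => by
          rw [Finsupp.single_eq_of_ne (Ne.symm hwv)])]
      simp
    obtain ⟨k, hk⟩ := exists_div_mem_of_prime_index hp hidx hzJ (y / b)
    obtain ⟨n, hn, e, he, hne⟩ := Subgroup.mem_sup.mp hk
    have hn' : ∀ v ∈ S, LS.sym v a n = 1 := by
      simp only [Subgroup.mem_iInf] at hn
      exact hn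
    have hdec : (y / b) / (x ^ k * e) ∈ ⨅ v ∈ S₁, LS.N v a := by
      simp only [Subgroup.mem_iInf]
      intro v hv
      change LS.sym v a _ = 1
      have hxz : (LS.sym v a x) = if v ∈ S then LS.sym v a z else 1 := by
        have h1 := DFunLike.congr_fun hx v
        rw [symVec_apply] at h1
        split_ifs with h
        · rw [huv v h] at h1
          exact h1.symm
        · rw [huv' v h] at h1
          exact h1.symm
      rw [_root_.map_div, map_mul, map_pow, hxz, div_eq_one]
      split_ifs with h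
      · have h2 : y / b = n * e * z ^ k := by rw [hne, div_mul_cancel]
        rw [h2, map_mul, map_mul, map_pow, hn' v h, one_mul, mul_comm]
      · rw [hyb v hv h, one_pow, one_mul, LS.sym_unit hSp haS he h]
    refine Subgroup.mem_sup.mpr ⟨_, hdec, x ^ k * e * b,
      mul_mem (mul_mem (pow_mem hxS₁ k) (E_mono hSS₁ he)) hbS₁, ?_⟩
    rw [← mul_assoc, div_mul_cancel, div_mul_cancel]

end Vec

end Fermat.Agent.CFT.Global2
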