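import Fermat.Agent.CFT.Global2.Final2

/-!
# The reciprocity law mod `2` for totally complex number fields

Symbols with product formula and existence theorem; transported to abstract number fields.
-/

set_option autoImplicit false

namespace Fermat.Agent.CFT.Global2

open Fermat.Agent.PT Fermat.Agent.CFT.Kum Fermat.Agent.CFT.Kum.KumSet Fermat.Agent.CFT.Bridge
open Fermat.Agent.CFT.Global
open NumberField IsDedekindDomain Polynomial

/-- Local symbols mod `2` with the product formula and the existence theorem. -/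
structure GlobSym (K : Type) [Field K] [NumberField K] where
  /-- the symbols -/
  LS : LocalSymbols 2 K
  /-- product formula -/
  prod : ∀ a x : Kˣ, (symVec LS two_ne_zero a x).sum (fun _ n => n) = 0
  /-- existence -/
  exist : ∀ a : Kˣ, (∀ b : Kˣ, b ^ 2 ≠ a) → ∀ t : HeightOneSpectrum (𝓞 K) →₀ ZMod 2,
    (∀ v, a ∈ locPow 2 v → t v = 0) → t.sum (fun _ n => n) = 0 →
    ∃ x, symVec LS two_ne_zero a x = t

theorem nonempty_globSym_aux (K : IntermediateField ℚ (AlgebraicClosure ℚ))
    [FiniteDimensional ℚ K] [IsTotallyComplex K] : Nonempty (GlobSym K) := by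
  have HL := CFTLocal.locH2_all (p := 2)
  have hζ : IsPrimitiveRoot (-1 : K) 2 := IsPrimitiveRoot.neg_one 0 (by norm_num)
  obtain ⟨c, hc, hR⟩ := exists_reciprocity (K := K) unitMem HL hζ
  have hc1 : ∀ v, c v = 1 := by
    intro v
    have h1 : ∀ z : ZMod 2, z ≠ 0 → z = 1 := by decide
    exact h1 _ (hc v)
  have hsum : ∀ t : HeightOneSpectrum (𝓞 K) →₀ ZMod 2,
      t.sum (fun v n => c v * n) = t.sum (fun _ n => n) := by
    intro t
    refine Finsupp.sum_congr fun v _ => ?_
    rw [hc1, one_mul]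
  refine ⟨⟨symG unitMem HL hζ, ?_, ?_⟩⟩
  · intro a x
    rw [← hsum, ← hR]
    exact ⟨_, invVec_cupX unitMem HL hζ a x⟩
  · intro a ha t ht hs
    rw [← hsum, ← hR] at hs
    obtain ⟨y, rfl⟩ := hs
    obtain ⟨x, rfl⟩ := exists_eq_cupX unitMem HL hζ ha y ht
    exact ⟨x, (invVec_cupX unitMem HL hζ a x).symm⟩

/-! ### Transport to abstract number fields -/

lemma isNormFrom_two_iff {K : Type*} [Field K] (a x : Kˣ) :
    IsNormFrom 2 a x ↔ ∃ s t : K, (x : K) = s ^ 2 - a * t ^ 2 := by
  constructor
  · rintro ⟨z, hz⟩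
    refine ⟨(quadBasis (a : K)).repr z 0, (quadBasis (a : K)).repr z 1, ?_⟩
    have h1 := (quadBasis (a : K)).sum_repr z
    rw [Fin.sum_univ_two, quadBasis_zero, quadBasis_one] at h1
    rw [← hz, ← norm_quad, h1]
  · rintro ⟨s, t, h⟩
    exact isNormFrom_two_of h

section Transport

variable {K K₀ : Type} [Field K] [NumberField K] [Field K₀] [NumberField K₀] (e : K ≃+* K₀)

/-- the induced bijection of places -/
noncomputable def eV : HeightOneSpectrum (𝓞 K) ≃ HeightOneSpectrum (𝓞 K₀) :=
  HeightOneSpectrum.equivOfRingEquiv (RingOfIntegers.mapRingEquiv e)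

lemma eV_valuation (v : HeightOneSpectrum (𝓞 K)) (x : K) :
    (eV e v).valuation K₀ (e x) = v.valuation K x :=
  Places.valuation_equivOfRingEquiv (RingOfIntegers.mapRingEquiv e) e (fun _ => rfl) v x

lemma eV_locPow (p : ℕ) (v : HeightOneSpectrum (𝓞 K)) (a : Kˣ) :
    Units.mapEquiv (e : K ≃* K₀) a ∈ locPow p (eV e v) ↔ a ∈ locPow p v := by
  have key : ∀ y : Kˣ, (eV e v).valuation K₀
      ((Units.mapEquiv (e : K ≃* K₀) a / Units.mapEquiv (e : K ≃* K₀) y ^ p : K₀ˣ) - 1 : K₀) =
      v.valuation K ((a / y ^ p : Kˣ) - 1 : K) := by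
    intro y
    rw [← eV_valuation e, ← map_pow, ← _root_.map_div, map_sub e, map_one e]
    rfl
  rw [mem_locPow, mem_locPow]
  constructor
  · intro h n
    obtain ⟨y, hy⟩ := h n
    obtain ⟨y, rfl⟩ := (Units.mapEquiv (e : K ≃* K₀)).surjective y
    exact ⟨y, by rwa [key] at hy⟩
  · intro h n
    obtain ⟨y, hy⟩ := h n
    exact ⟨Units.mapEquiv (e : K ≃* K₀) y, by rwa [key]⟩

lemma eV_ord (v : HeightOneSpectrum (𝓞 K)) (x : Kˣ) :
    SUnits.ord (eV e v) (Units.mapEquiv (e : K ≃* K₀) x) = SUnits.ord v x := by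
  have h1 := eV_valuation e v x
  have h2 : e (x : K) = ((Units.mapEquiv (e : K ≃* K₀) x : K₀ˣ) : K₀) := rfl
  rw [h2, SUnits.valuation_eq_exp_neg_ord, SUnits.valuation_eq_exp_neg_ord,
    WithZero.exp_inj] at h1
  omega

/-- transport of local symbols -/
noncomputable def symTransport (LS : LocalSymbols 2 K₀) : LocalSymbols 2 K where
  sym v :=
    { toFun := fun a => (LS.sym (eV e v) (Units.mapEquiv (e : K ≃* K₀) a)).comp
        (Units.mapEquiv (e : K ≃* K₀)).toMonoidHom
      map_one' := by
        ext x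
        simp
      map_mul' := by
        intro a b
        ext x
        simp }
  mem_locPow_iff := by
    intro v a
    rw [← eV_locPow e, LS.mem_locPow_iff]
    constructor
    · intro h x
      exact h _
    · intro h x
      obtain ⟨x, rfl⟩ := (Units.mapEquiv (e : K ≃* K₀)).surjective x
      exact h x
  skew := fun v a b => LS.skew _ _ _
  norm_mem := by
    intro v a x h
    apply LS.norm_mem
    rw [isNormFrom_two_iff] at h ⊢
    obtain ⟨s, t, h⟩ := h
    refine ⟨e s, e t, ?_⟩
    have h1 := congrArg e h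
    rw [map_sub, map_mul, map_pow, map_pow] at h1
    exact h1
  unit_mem := by
    intro v hv a x ha hx
    refine LS.unit_mem _ ?_ _ _ ?_ ?_
    · intro h
      apply hv
      have h1 : (RingOfIntegers.mapRingEquiv e).symm (2 : 𝓞 K₀) ∈ v.asIdeal := h
      rwa [map_ofNat] at h1
    · exact (eV_ord e v a).trans ha
    · exact (eV_ord e v x).trans hx

lemma symTransport_sym (LS : LocalSymbols 2 K₀) (v : HeightOneSpectrum (𝓞 K)) (a x : Kˣ) :
    (symTransport e LS).sym v a x = LS.sym (eV e v) (Units.mapEquiv (e : K ≃* K₀) a)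
      (Units.mapEquiv (e : K ≃* K₀) x) := rfl

/-- transport of the reciprocity law -/
noncomputable def GlobSym.transport (S : GlobSym K₀) : GlobSym K where
  LS := symTransport e S.LS
  prod := by
    intro a x
    rw [← S.prod (Units.mapEquiv (e : K ≃* K₀) a) (Units.mapEquiv (e : K ≃* K₀) x)]
    have h1 : symVec S.LS two_ne_zero (Units.mapEquiv (e : K ≃* K₀) a)
        (Units.mapEquiv (e : K ≃* K₀) x) =
        (symVec (symTransport e S.LS) two_ne_zero a x).equivMapDomain (eV e) := by
      ext v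
      obtain ⟨v, rfl⟩ := (eV e).surjective v
      rw [Finsupp.equivMapDomain_apply, Equiv.symm_apply_apply]
      rfl
    rw [h1, Finsupp.equivMapDomain_eq_mapDomain, Finsupp.sum_mapDomain_index (fun _ => rfl)
      (fun _ _ _ => rfl)]
  exist := by
    intro a ha t ht hs
    have h2 : ∀ b : K₀ˣ, b ^ 2 ≠ Units.mapEquiv (e : K ≃* K₀) a := by
      intro b hb
      obtain ⟨b, rfl⟩ := (Units.mapEquiv (e : K ≃* K₀)).surjective b
      rw [← map_pow] at hb
      exact ha b ((Units.mapEquiv (e : K ≃* K₀)).injective hb)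
    obtain ⟨x, hx⟩ := S.exist (Units.mapEquiv (e : K ≃* K₀) a) h2 (t.equivMapDomain (eV e)) (by
      intro v hv
      obtain ⟨v, rfl⟩ := (eV e).surjective v
      rw [eV_locPow] at hv
      rw [Finsupp.equivMapDomain_apply, Equiv.symm_apply_apply]
      exact ht v hv) (by
      rw [Finsupp.equivMapDomain_eq_mapDomain, Finsupp.sum_mapDomain_index (fun _ => rfl)
        (fun _ _ _ => rfl), hs])
    obtain ⟨x, rfl⟩ := (Units.mapEquiv (e : K ≃* K₀)).surjective x
    refine ⟨x, ?_⟩
    ext v
    have h3 := DFunLike.congr_fun hx (eV e v)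
    rw [Finsupp.equivMapDomain_apply, Equiv.symm_apply_apply] at h3
    rw [← h3]
    rfl

end Transport

/-- **The reciprocity law mod 2** for totally complex number fields. -/
theorem nonempty_globSym (K : Type) [Field K] [NumberField K] [IsTotallyComplex K] :
    Nonempty (GlobSym K) := by
  let ι : K →ₐ[ℚ] AlgebraicClosure ℚ := IsAlgClosed.lift
  let e : K ≃ₐ[ℚ] ι.fieldRange := AlgEquiv.ofInjectiveField ι
  have hfd : FiniteDimensional ℚ ι.fieldRange := LinearEquiv.finiteDimensional e.toLinearEquiv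
  have hTC : IsTotallyComplex ι.fieldRange := by
    let _ := (e : K →+* ι.fieldRange).toAlgebra
    exact isTotallyComplex_of_algebra K ι.fieldRange
  obtain ⟨S⟩ := nonempty_globSym_aux ι.fieldRange
  exact ⟨S.transport e.toRingEquiv⟩

end Fermat.Agent.CFT.Global2
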