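import Fermat.Agent.CFT.Global.Hasse
import Fermat.Agent.CFT.Global2.Reciprocity2

/-!
# Local symbols for all primes `p` (in particular `p = 2`)

The only local input for which `p` odd was used is "units pair trivially"; it is isolated here as
`UnitMem p`.
-/

set_option autoImplicit false

open Fermat.Agent.PT Fermat.Agent.CFT.Kum Fermat.Agent.CFT.Kum.KumSet
open IsDedekindDomain NumberField Fermat.Agent.CFT.Bridge Fermat.Agent.CFT.Global

namespace Fermat.Agent.CFT.Global2

/-- **Local input**: away from `p`, units have trivial symbols. -/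
def UnitMem (p : ℕ) [Fact p.Prime] : Prop :=
  ∀ (q : ℕ) [Fact q.Prime] (l : IntermediateField ℚ_[q] (PadicAlgCl q)) [FiniteDimensional ℚ_[q] l]
    (ξ : l) (hξ : IsPrimitiveRoot ξ p)
    (inv : H2 (lev l) (Bridge.triv p l.fixingSubgroup) →+ ZMod p), q ≠ p →
    ∀ a x : lˣ, ‖(a : l)‖ = 1 → ‖(x : l)‖ = 1 →
      symF (kumOf l hξ) (isFixed_fixingSubgroup l) inv a x = 1

section loc

variable {q : ℕ} [hq : Fact q.Prime] {p : ℕ} [hp : Fact p.Prime]
  (l : IntermediateField ℚ_[q] (PadicAlgCl q)) [FiniteDimensional ℚ_[q] l]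

/-- The Hilbert symbol `(a, x) ↦ inv (κ_a ∪ κ_x)` on `l`. -/
noncomputable def locSymOf (HU : UnitMem p) {ξ : l} (hξ : IsPrimitiveRoot ξ p)
    (inv : H2 (lev l) (Bridge.triv p l.fixingSubgroup) →+ ZMod p)
    (hinv : Function.Injective inv) : LocSym p q l where
  sym := symF (kumOf l hξ) (isFixed_fixingSubgroup l) inv
  mem_pow_iff := fun a => (exists_unit_pow_iff l).trans
    (symF_nondeg _ _ inv hinv (fun _ ha => exists_not_isNormFrom (q := q) l hp.out hξ ha) a)
  skew := symF_skew _ _ inv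
  norm_mem := fun _ _ h => symF_of_isNormFrom _ _ inv h
  unit_mem := fun hqp a x ha hx => HU q l ξ hξ inv hqp a x ha hx

lemma locSymOf_sym (HU : UnitMem p) {ξ : l} (hξ : IsPrimitiveRoot ξ p)
    (inv : H2 (lev l) (Bridge.triv p l.fixingSubgroup) →+ ZMod p)
    (hinv : Function.Injective inv) :
    (locSymOf l HU hξ inv hinv).sym = symF (kumOf l hξ) (isFixed_fixingSubgroup l) inv := rfl

end loc

section glob

variable {K : IntermediateField ℚ (AlgebraicClosure ℚ)} [FiniteDimensional ℚ K]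
  {p : ℕ} [hp : Fact p.Prime]

/-- Local symbol data at the place `v`. -/
noncomputable def locSymAt (HU : UnitMem p) {ζ : K} (hζ : IsPrimitiveRoot ζ p)
    {v : HeightOneSpectrum (𝓞 K)} {P : PlaceRep K v} (I : LocFunc p P) : LocSymAt p K v :=
  letI := P.hq
  { q := P.q
    hq := P.hq
    τ := emb K P.q P.g
    hτ := P.h
    s := locSymOf (locField (emb K P.q P.g)) HU (primitiveRoot_toLoc K P.q P.g hζ) I.inv I.inj }

/-- The symbols on `Kˣ` attached to local invariants. -/
noncomputable def globSymbols (HU : UnitMem p) {ζ : K} (hζ : IsPrimitiveRoot ζ p)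
    (P : ∀ v, PlaceRep K v) (I : ∀ v, LocFunc p (P v)) : Global.LocalSymbols p K :=
  localSymbols hp.out.ne_zero fun v => locSymAt HU hζ (I v)

/-- The symbols are given by the local invariants of the cup products of the Kummer characters. -/
theorem globSymbols_sym (HU : UnitMem p) {ζ : K} (hζ : IsPrimitiveRoot ζ p)
    (P : ∀ v, PlaceRep K v) (I : ∀ v, LocFunc p (P v)) (v : HeightOneSpectrum (𝓞 K)) :
    (globSymbols HU hζ P I).sym v =
      symF (kumOf K hζ) (isFixed_fixingSubgroup K) (I v).invK := by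
  let _ := (P v).hq
  ext a x
  exact symF_resW K (P v).q (P v).g hζ (I v).inv a x

end glob

section

variable {p : ℕ} [hp : Fact p.Prime]

theorem inputs_of_locH2 (HU : UnitMem p) (HL : LocH2 p) : Inputs.{0} p where
  prime := hp.out
  firstIneq := firstInequality hp.out
  localCount := LocalCount.localCount hp.out
  symbols := fun F _ _ _ ζ hζ => nonempty_localSymbols hp.out.ne_zero hζ
    (fun q _ l _ ξ hξ => by
      obtain ⟨inv, hinv⟩ := HL.exists_inv q l hξ
      exact ⟨locSymOf l HU hξ inv hinv.1⟩)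

variable {K : IntermediateField ℚ (AlgebraicClosure ℚ)} [FiniteDimensional ℚ K]

/-- The Hasse principle for cup products. -/
theorem cupX_eq_zero_of_resW [IsTotallyComplex K] (HU : UnitMem p) (HL : LocH2 p) {ζ : K}
    (hζ : IsPrimitiveRoot ζ p) (χ ψ : Xp (lev K) p)
    (h : ∀ (q : ℕ) [Fact q.Prime] (g : GamQ), resW K q g (cupX χ ψ) = 0) : cupX χ ψ = 0 := by
  obtain ⟨a, ha⟩ := kumF_surjective (kumOf K hζ) (isFixed_fixingSubgroup K)
    (Multiplicative.ofAdd χ)
  obtain ⟨b, hb⟩ := kumF_surjective (kumOf K hζ) (isFixed_fixingSubgroup K)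
    (Multiplicative.ofAdd ψ)
  have hχ : χ = (kumF (kumOf K hζ) (isFixed_fixingSubgroup K) a).toAdd := by rw [ha]; rfl
  have hψ : ψ = (kumF (kumOf K hζ) (isFixed_fixingSubgroup K) b).toAdd := by rw [hb]; rfl
  by_cases hbp : ∃ c : Kˣ, c ^ p = b
  · rw [hψ, (kumF_eq_one_iff _ _ b).2 hbp, toAdd_one, map_zero]
  push Not at hbp
  rw [hχ, hψ, cupX_kumF_eq_zero_iff _ _ hbp]
  let P : ∀ v, PlaceRep K v := fun v => placeRep K v
  let I : ∀ v, LocFunc p (P v) := fun v => (HL.exists_locFunc hζ (P v)).some.toLocFunc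
  refine hasse_norm (inputs_of_locH2 HU HL) (globSymbols HU hζ P I) hζ hbp a fun v => ?_
  have h1 := (globSymbols HU hζ P I).skew v a b
  have h2 : (globSymbols HU hζ P I).sym v a b = 1 := by
    rw [globSymbols_sym, symF_apply, ← hχ, ← hψ]
    have := (P v).hq
    change Multiplicative.ofAdd ((I v).inv (resW K (P v).q (P v).g (cupX χ ψ))) = 1
    rw [h, map_zero]
    rfl
  rwa [h2, one_mul] at h1

end

/-- **The Hasse principle for `H²(G_K, ℤ/p)`**, `K ∋ ζ_p`, `K` totally complex. -/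
theorem hasse_principle {p : ℕ} [hp : Fact p.Prime] (HU : UnitMem p) (HL : LocH2 p)
    (K : IntermediateField ℚ (AlgebraicClosure ℚ)) [FiniteDimensional ℚ K] [IsTotallyComplex K]
    {ζ : K} (hζ : IsPrimitiveRoot ζ p) (x : H2 (lev K) (Bridge.triv p K.fixingSubgroup))
    (hx : ∀ (q : ℕ) [Fact q.Prime] (g : GamQ), resW K q g x = 0) : x = 0 := by
  obtain ⟨c, rfl⟩ := H2mk_surjective (𝓛 := lev K) (ρ := Bridge.triv p K.fixingSubgroup) x
  rw [← locTriv_iff_resW] at hx
  rw [H2mk_triv_eq_zero_iff]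
  set ζ' : AlgebraicClosure ℚ := (ζ : AlgebraicClosure ℚ) with hζ'
  have hζ1 : IsPrimitiveRoot ζ' p := hζ.map_of_injective (algebraMap K (AlgebraicClosure ℚ)).injective
  have hfix : ∀ H : Subgroup GamQ, H ≤ K.fixingSubgroup → ∀ g ∈ H, g ζ' = ζ' := by
    intro H hH g hg
    exact (IntermediateField.mem_fixingSubgroup_iff _ _).mp (hH hg) _ ζ.2
  refine hasse_abstract (𝓛 := levQ) (𝓛i := PlL) (φ := plPhi) (U₀ := K.fixingSubgroup)
    (fun H hH => kumSetOf hp.out.pos H hζ1 (hfix H hH)) (fun i => compat_phiLoc i.q i.g) ?_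
    K.fixingSubgroup le_rfl (fixingSubgroup_mem_galLevels K) c.1 c.2.1 ?_ hx
  · intro H hH hHU κ χ hκ hχ hκa hχa hloc
    obtain ⟨F, hFfin, rfl⟩ : ∃ F : IntermediateField ℚ (AlgebraicClosure ℚ),
        FiniteDimensional ℚ F ∧ F.fixingSubgroup = H :=
      ⟨IntermediateField.fixedField H, fixedField_finite_of_mem hH,
        fixingSubgroup_fixedField_of_mem hH⟩
    have hKF : K ≤ F := by
      have h1 := IntermediateField.fixedField_antitone hHU
      rwa [InfiniteGalois.fixedField_fixingSubgroup, InfiniteGalois.fixedField_fixingSubgroup]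
        at h1
    have hTC : IsTotallyComplex F := by
      letI := (IntermediateField.inclusion hKF).toRingHom.toAlgebra
      exact isTotallyComplex_of_algebra K F
    have hζF : ζ' ∈ F := hKF ζ.2
    have hζ2 : IsPrimitiveRoot (⟨ζ', hζF⟩ : F) p :=
      IsPrimitiveRoot.of_map_of_injective (f := algebraMap F (AlgebraicClosure ℚ)) hζ1
        (algebraMap F (AlgebraicClosure ℚ)).injective
    let κ' : Xp (lev F) p := ⟨κ, hκ, hκa⟩
    let χ' : Xp (lev F) p := ⟨χ, hχ, hχa⟩
    have h1 := cupX_eq_zero_of_resW HU HL hζ2 κ' χ'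
      ((locTriv_iff_resW F (cupZ2 κ' χ')).1 hloc)
    exact (cupX_eq_zero_iff κ' χ').1 h1
  · exact fun g h j => c.2.2 g h j

end Fermat.Agent.CFT.Global2
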