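import Fermat.Agent.CFT.Global.Image
import Fermat.Agent.CFT.Global2.Loc2

/-!
# The image of `H²(G_K, ℤ/p)` in the sum of the local groups, `K ∋ ζ_p` totally complex, all `p`
-/

set_option autoImplicit false
set_option linter.unusedSectionVars false

namespace Fermat.Agent.CFT.Global2

open Fermat.Agent.PT Fermat.Agent.CFT.Kum Fermat.Agent.CFT.Kum.KumSet Fermat.Agent.CFT.Bridge
open Fermat.Agent.CFT.Global
open NumberField IsDedekindDomain

variable {p : ℕ} [hp : Fact p.Prime]

/-- **Local**: `H²(G_l, ℤ/p)` dies in `l(a^{1/p})`, `a` not a `p`-th power in `l`. -/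
theorem resKL_local_eq_zero (HU : UnitMem p) (HL : LocH2 p) {q : ℕ} [Fact q.Prime]
    {l l' : IntermediateField ℚ_[q] (PadicAlgCl q)} [FiniteDimensional ℚ_[q] l] (h : l ≤ l')
    {ξ : l} (hξ : IsPrimitiveRoot ξ p) (a : lˣ) (ha : ∀ b : l, b ^ p ≠ (a : l))
    {α : PadicAlgCl q} (hα : α ∈ l') (hαa : α ^ p = ((a : l) : PadicAlgCl q))
    (y : H2 (lev l) (Bridge.triv p l.fixingSubgroup)) : resKL h y = 0 := by
  obtain ⟨inv, hinv⟩ := HL.exists_inv q l hξ
  let s := locSymOf l HU hξ inv hinv.1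
  obtain ⟨x, hx⟩ : ∃ x, s.sym a x ≠ 1 := by
    by_contra! hcon
    obtain ⟨b, hb⟩ := (s.mem_pow_iff a).2 hcon
    exact ha b hb
  set c := cupX (kumF (kumOf l hξ) (isFixed_fixingSubgroup l) a).toAdd
    (kumF (kumOf l hξ) (isFixed_fixingSubgroup l) x).toAdd with hc
  have hc0 : inv c ≠ 0 := fun h0 => hx (by
    change Multiplicative.ofAdd (inv c) = 1
    rw [h0]
    rfl)
  have hy : y = (inv y * (inv c)⁻¹) • c := by
    apply hinv.1
    rw [ZMod.map_smul inv, smul_eq_mul, mul_assoc, inv_mul_cancel₀ hc0, mul_one]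
  rw [hy, map_smul, hc, resKL_cupX_eq_zero h hξ a hα hαa, smul_zero]


section Main

variable {K : IntermediateField ℚ (AlgebraicClosure ℚ)} [FiniteDimensional ℚ K]
  (HU : UnitMem p) (HL : LocH2 p) {ζ : K} (hζ : IsPrimitiveRoot ζ p)

/-- A choice of local invariants at all places of `K`. -/
noncomputable def locI (v : HeightOneSpectrum (𝓞 K)) : LocFunc' p (placeRep K v) :=
  (HL.exists_locFunc hζ (placeRep K v)).some

/-- The invariant map `H²(G_K, ℤ/p) → ℤ/p` at `v`. -/
noncomputable def invAt (v : HeightOneSpectrum (𝓞 K)) :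
    H2 (lev K) (Bridge.triv p K.fixingSubgroup) →+ ZMod p :=
  (locI HL hζ v).toLocFunc.invK

/-- The invariant vanishes iff the restriction to the place vanishes. -/
theorem invAt_eq_zero_iff {v : HeightOneSpectrum (𝓞 K)} (q : ℕ) [Fact q.Prime] (g : GamQ)
    (hv : placeOf (emb K q g) = v) (x : H2 (lev K) (Bridge.triv p K.fixingSubgroup)) :
    invAt HL hζ v x = 0 ↔ resW K q g x = 0 := by
  rw [← resW_placeRep_eq_zero_iff (placeRep K v) q g hv x]
  let _ := (placeRep K v).hq
  have hinj := (locI HL hζ v).toLocFunc.inj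
  change (locI HL hζ v).toLocFunc.inv (resW K (placeRep K v).q (placeRep K v).g x) = 0 ↔ _
  rw [map_eq_zero_iff _ hinj]

/-- The local symbols attached to the chosen invariants. -/
noncomputable def symG : LocalSymbols p K :=
  globSymbols HU hζ (fun v => placeRep K v) (fun v => (locI HL hζ v).toLocFunc)

lemma symG_sym (v : HeightOneSpectrum (𝓞 K)) (a x : Kˣ) :
    ((symG HU HL hζ).sym v a x).toAdd = invAt HL hζ v (cupX (kumG hζ a) (kumG hζ x)) := by
  rw [symG, globSymbols_sym]
  rfl

lemma finite_invAt (x : H2 (lev K) (Bridge.triv p K.fixingSubgroup)) :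
    {v | invAt HL hζ v x ≠ 0}.Finite := by
  refine (finite_support K x).subset fun v hv => ?_
  refine ⟨(placeRep K v).q, (placeRep K v).hq, (placeRep K v).g, (placeRep K v).h, ?_⟩
  let _ := (placeRep K v).hq
  rwa [Ne, ← invAt_eq_zero_iff HL hζ _ _ (placeRep K v).h]

/-- The vector of local invariants. -/
noncomputable def invVec : H2 (lev K) (Bridge.triv p K.fixingSubgroup) →+
    (HeightOneSpectrum (𝓞 K) →₀ ZMod p) :=
  AddMonoidHom.mk' (fun x => Finsupp.ofSupportFinite (fun v => invAt HL hζ v x)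
    (finite_invAt HL hζ x)) (by
    intro x y
    ext v
    exact (invAt HL hζ v).map_add x y)

@[simp] lemma invVec_apply (x : H2 (lev K) (Bridge.triv p K.fixingSubgroup))
    (v : HeightOneSpectrum (𝓞 K)) : invVec HL hζ x v = invAt HL hζ v x := rfl

include HU in
/-- **Injectivity** (Hasse principle). -/
theorem invVec_injective [IsTotallyComplex K] : Function.Injective (invVec HL hζ) := by
  rw [injective_iff_map_eq_zero]
  intro x hx
  refine hasse_principle HU HL K hζ x fun q _ g => ?_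
  rw [← invAt_eq_zero_iff HL hζ q g rfl, ← invVec_apply HL hζ, hx]
  rfl

lemma invVec_cupX (a x : Kˣ) :
    invVec HL hζ (cupX (kumG hζ a) (kumG hζ x)) =
      symVec (symG HU HL hζ) hp.out.ne_zero a x := by
  ext v
  rw [invVec_apply, symVec_apply, symG_sym]

include HU in
/-- Classes which are trivial at all places where `a` is a local `p`-th power are of the form
`κ_a ∪ κ_x`. -/
theorem exists_eq_cupX [IsTotallyComplex K] {a : Kˣ} (ha : ∀ b : Kˣ, b ^ p ≠ a)
    (y : H2 (lev K) (Bridge.triv p K.fixingSubgroup))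
    (hy : ∀ v, a ∈ locPow p v → invAt HL hζ v y = 0) :
    ∃ x : Kˣ, y = cupX (kumG hζ a) (kumG hζ x) := by
  obtain ⟨L, hKL, hLfin, ⟨α, hαL, hα⟩, hker⟩ := exists_kummerField hζ a
  have hTC : IsTotallyComplex L := by
    let _ := (IntermediateField.inclusion hKL).toRingHom.toAlgebra
    exact isTotallyComplex_of_algebra K L
  have h1 : resKL hKL y = 0 := by
    refine hasse_principle HU HL L (primitiveRoot_inclusion hKL hζ) _ fun q _ g => ?_
    rw [resW_resKL]
    by_cases hav : a ∈ locPow p (placeOf (emb K q g))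
    · have h2 := (invAt_eq_zero_iff HL hζ q g rfl y).1 (hy _ hav)
      rw [h2, map_zero]
    · rw [mem_locPow_placeOf_iff hp.out.ne_zero] at hav
      push Not at hav
      refine resKL_local_eq_zero HU HL (locField_emb_mono hKL q g)
        (primitiveRoot_toLoc K q g hζ) (toLocU (emb K q g) a) hav
        (α := embBar q g α) (apply_mem_locField (emb L q g) ⟨α, hαL⟩) ?_ _
      rw [← map_pow, hα]
      rfl
  have h2 : resT (Xp.toHom (kumG hζ a)).ker.subtype (LevelSys.compat_comap _) y = 0 := by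
    let u : (Xp.toHom (kumG hζ a)).ker →* L.fixingSubgroup :=
      { toFun := fun g => ⟨g.1.1, hker g.1 g.2⟩
        map_one' := rfl
        map_mul' := fun _ _ => rfl }
    have hu : (lev L).Compat u ((lev K).restrict (Xp.toHom (kumG hζ a)).ker) := by
      rintro W ⟨W', hW', hle⟩
      refine ⟨W'.comap K.fixingSubgroup.subtype, ⟨W', hW', le_rfl⟩, ?_⟩
      intro g hg
      exact hle hg
    have h3 : resT u hu (resKL hKL y) = 0 := by rw [h1, map_zero]
    obtain ⟨c, rfl⟩ := H2mk_surjective y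
    exact h3
  obtain ⟨x, hx⟩ := exists_cupX_of_res (kumOf K hζ) (isFixed_fixingSubgroup K)
    (kumG_ne_zero hζ ha) y h2
  refine ⟨x⁻¹, ?_⟩
  have h3 : kumG hζ x⁻¹ = - kumG hζ x := by
    rw [kumG, map_inv]
    rfl
  have h4 := cupX_skew (kumG hζ x) (kumG hζ a)
  rw [h3, map_neg, hx]
  exact eq_neg_of_add_eq_zero_left h4

include HU in
/-- **The image of `H²(G_K, ℤ/p)`** (global reciprocity): it is the kernel of a functional all of
whose coefficients are nonzero. -/
theorem exists_reciprocity [IsTotallyComplex K] :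
    ∃ c : HeightOneSpectrum (𝓞 K) → ZMod p, (∀ v, c v ≠ 0) ∧
    ∀ t : HeightOneSpectrum (𝓞 K) →₀ ZMod p,
      (∃ x, invVec HL hζ x = t) ↔ t.sum (fun v n => c v * n) = 0 := by
  obtain ⟨c, hc, hR⟩ := exists_functional (symG HU HL hζ) (inputs_of_locH2 HU HL) hζ
    (invVec HL hζ).range (fun a x => ⟨_, invVec_cupX HU HL hζ a x⟩) (by
      rintro a hna t ⟨y, rfl⟩ ht
      obtain ⟨x, hx⟩ := exists_eq_cupX HU HL hζ hna y ht
      exact ⟨x, by rw [hx, invVec_cupX HU]⟩)
  exact ⟨c, hc, fun t => by rw [← hR]; rfl⟩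

end Main

end Fermat.Agent.CFT.Global2
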