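import Fermat.Agent.CFT.Global2.Final2

/-!
# The product formula for totally complex number fields `K ∋ ζ_p` (all primes `p`)
-/

set_option autoImplicit false

namespace Fermat.Agent.CFT.Global2

open Fermat.Agent.PT Fermat.Agent.CFT.Kum Fermat.Agent.CFT.Kum.KumSet Fermat.Agent.CFT.Bridge
open Fermat.Agent.CFT.Global Fermat.Agent.CFT.SUnits
open NumberField IsDedekindDomain WithZero

section transport

variable {p : ℕ} {K K' : Type} [Field K] [NumberField K] [Field K'] [NumberField K']
  (e : K ≃+* K')

/-- Places of isomorphic fields. -/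
noncomputable def placeEquiv : HeightOneSpectrum (𝓞 K) ≃ HeightOneSpectrum (𝓞 K') :=
  HeightOneSpectrum.equivOfRingEquiv (RingOfIntegers.mapRingEquiv e)

lemma valuation_placeEquiv (v : HeightOneSpectrum (𝓞 K)) (x : K) :
    (placeEquiv e v).valuation K' (e x) = v.valuation K x :=
  Places.valuation_equivOfRingEquiv (RingOfIntegers.mapRingEquiv e) e (fun _ => rfl) v x

/-- The isomorphism on unit groups. -/
noncomputable abbrev eU : Kˣ →* K'ˣ := Units.map (e : K →* K')

lemma ord_placeEquiv (v : HeightOneSpectrum (𝓞 K)) (x : Kˣ) :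
    ord (placeEquiv e v) (eU e x) = ord v x := by
  have h1 := valuation_placeEquiv e v (x : K)
  have h2 := valuation_eq_exp_neg_ord (v := v) (x := x)
  have h3 := valuation_eq_exp_neg_ord (v := placeEquiv e v) (x := eU e x)
  have h4 : ((eU e x : K'ˣ) : K') = e (x : K) := rfl
  rw [h4, h1, h2, exp_inj] at h3
  omega

lemma mem_locPow_placeEquiv (v : HeightOneSpectrum (𝓞 K)) (a : Kˣ) :
    eU e a ∈ locPow p (placeEquiv e v) ↔ a ∈ locPow p v := by
  rw [mem_locPow, mem_locPow]
  refine forall_congr' fun n => ?_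
  constructor
  · rintro ⟨y, hy⟩
    refine ⟨Units.map (e.symm : K' →* K) y, ?_⟩
    rw [← valuation_placeEquiv e v]
    refine le_of_eq_of_le (congrArg _ ?_) hy
    simp
  · rintro ⟨y, hy⟩
    refine ⟨eU e y, ?_⟩
    rw [← valuation_placeEquiv e v] at hy
    refine le_of_eq_of_le (congrArg _ ?_) hy
    simp

/-- Transport of local symbols along a field isomorphism. -/
noncomputable def transport (hp : p ≠ 0) (LS : LocalSymbols p K') : LocalSymbols p K where
  sym v := ((LS.sym (placeEquiv e v)).compl₂ (eU e)).comp (eU e)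
  mem_locPow_iff := by
    intro v a
    rw [← mem_locPow_placeEquiv e, LS.mem_locPow_iff]
    constructor
    · exact fun h x => h _
    · intro h x
      have h1 : x = eU e (Units.map (e.symm : K' →* K) x) := by
        ext
        simp
      rw [h1]
      exact h _
  skew := fun v a b => LS.skew _ _ _
  norm_mem := fun v a x h => LS.norm_mem _ _ _ (isNormFrom_map (e : K →+* K') hp h)
  unit_mem := by
    intro v hv a x ha hx
    refine LS.unit_mem _ ?_ _ _ ?_ ?_
    · intro h
      apply hv
      have h1 : (RingOfIntegers.mapRingEquiv e).symm (p : 𝓞 K') ∈ v.asIdeal := h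
      rwa [map_natCast] at h1
    · rw [ord_placeEquiv, ha]
    · rw [ord_placeEquiv, hx]

lemma transport_sym (hp : p ≠ 0) (LS : LocalSymbols p K') (v : HeightOneSpectrum (𝓞 K))
    (a x : Kˣ) : (transport e hp LS).sym v a x = LS.sym (placeEquiv e v) (eU e a) (eU e x) := rfl

include e in
lemma isTotallyComplex_of_equiv [IsTotallyComplex K] : IsTotallyComplex K' := by
  let _ := e.toRingHom.toAlgebra
  exact isTotallyComplex_of_algebra K K'

end transport

/-- **The product formula** (up to the normalisation of the local invariants). -/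
theorem exists_productFormula {p : ℕ} [hp : Fact p.Prime] (K : Type) [Field K] [NumberField K]
    [IsTotallyComplex K] {ζ : K} (hζ : IsPrimitiveRoot ζ p) :
    ∃ (LS : LocalSymbols p K) (c : HeightOneSpectrum (𝓞 K) → ZMod p), (∀ v, c v ≠ 0) ∧
      ∀ a x : Kˣ, (symVec LS hp.out.ne_zero a x).sum (fun v n => c v * n) = 0 := by
  obtain ⟨f⟩ : Nonempty (K →ₐ[ℚ] AlgebraicClosure ℚ) := ⟨IsAlgClosed.lift⟩
  let K' : IntermediateField ℚ (AlgebraicClosure ℚ) := f.fieldRange
  let e : K ≃ₐ[ℚ] K' := AlgEquiv.ofInjectiveField f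
  have : FiniteDimensional ℚ K' := LinearEquiv.finiteDimensional e.toLinearEquiv
  have : NumberField K' := ⟨⟩
  have hTC : IsTotallyComplex K' := isTotallyComplex_of_equiv (e : K ≃+* K')
  have hζ' : IsPrimitiveRoot (e ζ) p := hζ.map_of_injective (f := (e : K ≃+* K')) e.injective
  obtain ⟨c, hc, hR⟩ := exists_reciprocity_all (p := p) hζ'
  refine ⟨transport (e : K ≃+* K') hp.out.ne_zero (symG unitMem CFTLocal.locH2_all hζ'),
    fun v => c (placeEquiv (e : K ≃+* K') v), fun v => hc _, fun a x => ?_⟩
  have h1 := (hR _).1 ⟨_, invVec_cupX unitMem CFTLocal.locH2_all hζ' (eU (e : K ≃+* K') a)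
    (eU (e : K ≃+* K') x)⟩
  have h2 : symVec (symG unitMem CFTLocal.locH2_all hζ') hp.out.ne_zero (eU (e : K ≃+* K') a)
      (eU (e : K ≃+* K') x) = (symVec (transport (e : K ≃+* K') hp.out.ne_zero
        (symG unitMem CFTLocal.locH2_all hζ')) hp.out.ne_zero a x).equivMapDomain
        (placeEquiv (e : K ≃+* K')) := by
    ext v
    rw [symVec_apply, Finsupp.equivMapDomain_apply, symVec_apply, transport_sym,
      Equiv.apply_symm_apply]
  rw [h2, Finsupp.sum_equivMapDomain] at h1
  exact h1

/-- **The product formula for quadratic symbols**, `K` totally complex. -/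
theorem exists_productFormula_two (K : Type) [Field K] [NumberField K] [IsTotallyComplex K] :
    ∃ LS : LocalSymbols 2 K,
      ∀ a x : Kˣ, (symVec LS two_ne_zero a x).sum (fun _ n => n) = 0 := by
  have hζ : IsPrimitiveRoot (-1 : K) 2 := IsPrimitiveRoot.neg_one 0 (by norm_num)
  obtain ⟨LS, c, hc, h⟩ := exists_productFormula (p := 2) K hζ
  refine ⟨LS, fun a x => ?_⟩
  rw [← h a x]
  refine Finsupp.sum_congr fun v _ => ?_
  have h1 : ∀ t : ZMod 2, t ≠ 0 → t = 1 := by decide
  rw [h1 _ (hc v), one_mul]

end Fermat.Agent.CFT.Global2
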