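import Fermat.Agent.CFT.Global2.GlobSym
import Mathlib.NumberTheory.RamificationInertia.Galois

/-!
# Unramified quadratic extensions of totally complex number fields

For `L/K` quadratic, unramified at all finite places, `K` totally complex:
* `recip`: the number of inert places at which `x : Kˣ` has odd order is even;
* `exist`: this is the only relation;
* `hasse`: if `x` has even order at all inert places then `x` is a norm;
* `exists_inert`: there is an inert place.
-/

set_option autoImplicit false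

namespace Fermat.Agent.CFT.Global2.Unr

open IsDedekindDomain NumberField WithZero Polynomial
open Fermat.Agent.CFT.SUnits (ord ord_one ord_mul ord_inv ord_pow ord_div ord_eq_zero_iff
  valuation_eq_exp_neg_ord finite_ord_ne_zero)
open Fermat.Agent.CFT.Places
open Fermat.Agent.CFT.Global hiding Inputs p_dvd_index exists_notMem_locPow exists_place powE mem_powE index_powE index_zpowers_sup_powE second hasse_norm FirstInequality exists_eq_nsmul_add exists_ne_symVec

open scoped Pointwise IntermediateField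

/-! ### Quadratic extensions -/

section Quad

lemma eq_one_or_of_card_two {G : Type*} [Group G] (h : Nat.card G = 2) {τ : G} (hτ : τ ≠ 1)
    (g : G) : g = 1 ∨ g = τ := by
  classical
  have : Finite G := Nat.finite_of_card_ne_zero (by rw [h]; norm_num)
  have := Fintype.ofFinite G
  rw [Nat.card_eq_fintype_card, ← Finset.card_univ] at h
  have h1 : ({1, τ} : Finset G) = Finset.univ := by
    refine Finset.eq_of_subset_of_card_le (Finset.subset_univ _) ?_
    rw [h, Finset.card_pair (Ne.symm hτ)]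
  have h2 : g ∈ ({1, τ} : Finset G) := by
    rw [h1]
    exact Finset.mem_univ g
  simpa using h2

variable {F E : Type*} [Field F] [Field E] [Algebra F E] [FiniteDimensional F E] [IsGalois F E]
  (h2 : Module.finrank F E = 2) {τ : E ≃ₐ[F] E} (hτ : τ ≠ 1)

include h2 hτ in
lemma univ_eq [DecidableEq (E ≃ₐ[F] E)] : (Finset.univ : Finset (E ≃ₐ[F] E)) = {1, τ} := by
  have h := IsGalois.card_aut_eq_finrank F E
  rw [h2] at h
  ext g
  simp only [Finset.mem_univ, Finset.mem_insert, Finset.mem_singleton, true_iff]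
  exact eq_one_or_of_card_two h hτ g

include h2 hτ in
lemma norm_eq_mul (x : E) : algebraMap F E (Algebra.norm F x) = x * τ x := by
  classical
  rw [Algebra.norm_eq_prod_automorphisms, univ_eq h2 hτ, Finset.prod_pair (Ne.symm hτ)]
  rfl

include h2 hτ in
lemma trace_eq_add (x : E) : algebraMap F E (Algebra.trace F E x) = x + τ x := by
  classical
  rw [trace_eq_sum_automorphisms, univ_eq h2 hτ, Finset.sum_pair (Ne.symm hτ)]
  rfl

include h2 hτ in
lemma apply_apply (x : E) : τ (τ x) = x := by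
  have h := IsGalois.card_aut_eq_finrank F E
  rw [h2] at h
  rcases eq_one_or_of_card_two h hτ (τ * τ) with h1 | h1
  · exact DFunLike.congr_fun h1 x
  · exfalso
    apply hτ
    exact mul_eq_left.mp h1

include h2 hτ in
lemma mem_range_of_fixed {x : E} (hx : τ x = x) : ∃ y : F, algebraMap F E y = x := by
  have h := IsGalois.card_aut_eq_finrank F E
  rw [h2] at h
  refine (IsGalois.mem_range_algebraMap_iff_fixed (F := F) x).mpr fun g => ?_
  rcases eq_one_or_of_card_two h hτ g with rfl | rfl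
  · rfl
  · exact hx

include h2 hτ in
/-- A quadratic extension is generated by a square root. -/
lemma exists_gen_quad [NeZero (2 : F)] : ∃ (α : E) (a : Fˣ), α ^ 2 = algebraMap F E a ∧ τ α = -α ∧ (∀ b : F, b ^ 2 ≠ a) ∧
    F⟮α⟯ = ⊤ := by
  obtain ⟨x, hx⟩ : ∃ x, τ x ≠ x := by
    by_contra! h
    exact hτ (AlgEquiv.ext h)
  set α := x - τ x with hα
  have h1 : τ α = -α := by
    rw [hα, map_sub, apply_apply h2 hτ, neg_sub]
  have hα0 : α ≠ 0 := sub_ne_zero.mpr (Ne.symm hx)
  obtain ⟨a, ha⟩ := mem_range_of_fixed h2 hτ (x := α ^ 2) (by rw [map_pow, h1, neg_sq])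
  have ha0 : a ≠ 0 := by
    rintro rfl
    rw [map_zero] at ha
    exact pow_ne_zero 2 hα0 ha.symm
  have h2E : (2 : E) ≠ 0 := by
    have := (map_ne_zero (algebraMap F E)).mpr (NeZero.ne (2 : F))
    rwa [map_ofNat] at this
  have h3 : ∀ b : F, algebraMap F E b ≠ α := by
    intro b hb
    have h4 : τ α = α := by
      rw [← hb, AlgEquiv.commutes]
    rw [h1] at h4
    have h5 : (2 : E) * α = 0 := by linear_combination -h4
    rcases mul_eq_zero.mp h5 with h | h
    · exact h2E h
    · exact hα0 h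
  refine ⟨α, Units.mk0 a ha0, ha.symm, h1, ?_, ?_⟩
  · intro b hb
    rw [Units.val_mk0] at hb
    have h4 : (algebraMap F E b) ^ 2 = α ^ 2 := by rw [← map_pow, hb, ha]
    rcases sq_eq_sq_iff_eq_or_eq_neg.mp h4 with h | h
    · exact h3 b h
    · exact h3 (-b) (by rw [map_neg, h, neg_neg])
  · have h4 : Module.finrank F F⟮α⟯ ∣ 2 := by
      rw [← h2]
      exact ⟨_, (Module.finrank_mul_finrank F F⟮α⟯ E).symm⟩
    rcases (Nat.dvd_prime Nat.prime_two).mp h4 with h | h
    · exfalso
      have h5 : F⟮α⟯ = ⊥ := IntermediateField.finrank_eq_one_iff.mp h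
      have h6 : α ∈ (⊥ : IntermediateField F E) := by
        rw [← h5]
        exact IntermediateField.mem_adjoin_simple_self F α
      obtain ⟨b, hb⟩ := IntermediateField.mem_bot.mp h6
      exact h3 b hb
    · apply IntermediateField.eq_of_le_of_finrank_eq le_top
      rw [h, IntermediateField.finrank_top', h2]

end Quad

/-! ### Inert places -/

section Inert

variable {K L : Type*} [Field K] [NumberField K] [Field L] [NumberField L] [Algebra K L]

variable (L) in
/-- `v` is inert (or ramified) in `L`: the places above `v` are fixed by the Galois group. -/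
def Inert (v : HeightOneSpectrum (𝓞 K)) : Prop :=
  ∃ w : HeightOneSpectrum (𝓞 L), w.under (𝓞 K) = v ∧ ∀ σ : L ≃ₐ[K] L, conj σ w = w

variable [IsGalois K L] (h2 : Module.finrank K L = 2) {σ : L ≃ₐ[K] L} (hσ : σ ≠ 1)

omit [IsGalois K L] in
lemma smul_asIdeal (τ : L ≃ₐ[K] L) (w : HeightOneSpectrum (𝓞 L)) :
    τ • w.asIdeal = (conj τ w).asIdeal := by
  ext x
  rw [mem_conj, Ideal.mem_pointwise_smul_iff_inv_smul_mem]
  exact Iff.rfl

include h2 hσ in
/-- the residue field at a fixed unramified place -/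
theorem residue (w : HeightOneSpectrum (𝓞 L)) (hw : conj σ w = w)
    (he : (w.under (𝓞 K)).asIdeal.ramificationIdx' w.asIdeal = 1) :
    (w.under (𝓞 K)).asIdeal.inertiaDeg' w.asIdeal = 2 ∧
    (∃ t : 𝓞 L, t + σ • t ∉ w.asIdeal) ∧
    ∀ c : 𝓞 K, ∃ s : 𝓞 L, s * σ • s - algebraMap (𝓞 K) (𝓞 L) c ∈ w.asIdeal := by
  set v := w.under (𝓞 K) with hv
  have hG : Nat.card Gal(L/K) = 2 := by rw [IsGalois.card_aut_eq_finrank, h2]
  have hv0 : v.asIdeal ≠ ⊥ := v.ne_bot
  have he' : v.asIdeal.ramificationIdxIn (𝓞 L) = 1 := by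
    rw [Ideal.ramificationIdxIn_eq_ramificationIdx v.asIdeal w.asIdeal Gal(L/K),
      ← Ideal.ramificationIdx'_eq_ramificationIdx v.asIdeal w.asIdeal hv0, he]
  have hin : Nat.card (w.asIdeal.inertia Gal(L/K)) = 1 := by
    rw [Ideal.card_inertia_eq_ramificationIdxIn v.asIdeal w.asIdeal, he']
  have hst : MulAction.stabilizer Gal(L/K) w.asIdeal = ⊤ := by
    rw [eq_top_iff]
    intro g _
    rw [MulAction.mem_stabilizer_iff, smul_asIdeal]
    rcases eq_one_or_of_card_two hG hσ g with rfl | rfl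
    · rw [conj_one]
    · rw [hw]
  have hf : w.asIdeal.inertiaDeg (𝓞 K) = 2 := by
    have h := Ideal.card_stabilizer_eq_card_inertia_mul_finrank (G := Gal(L/K)) v.asIdeal w.asIdeal
    rw [hst, hin, one_mul, Subgroup.card_top, hG] at h
    exact h.symm
  have hf' : v.asIdeal.inertiaDeg' w.asIdeal = 2 := by
    rw [Ideal.inertiaDeg'_eq_inertiaDeg, hf]
  refine ⟨hf', ?_⟩
  let _ : Field (𝓞 K ⧸ v.asIdeal) := Ideal.Quotient.field v.asIdeal
  let _ : Field (𝓞 L ⧸ w.asIdeal) := Ideal.Quotient.field w.asIdeal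
  have hfinL : Finite (𝓞 L ⧸ w.asIdeal) := inferInstance
  have hfinK : Finite (𝓞 K ⧸ v.asIdeal) := inferInstance
  have hd : Module.finrank (𝓞 K ⧸ v.asIdeal) (𝓞 L ⧸ w.asIdeal) = 2 := by
    rw [← hf', Ideal.inertiaDeg'_algebraMap]
  have hfd : FiniteDimensional (𝓞 K ⧸ v.asIdeal) (𝓞 L ⧸ w.asIdeal) :=
    FiniteDimensional.of_finrank_pos (by rw [hd]; norm_num)
  have hσs : σ ∈ MulAction.stabilizer Gal(L/K) w.asIdeal := by rw [hst]; trivial
  let τ := Ideal.Quotient.stabilizerHom w.asIdeal v.asIdeal Gal(L/K) ⟨σ, hσs⟩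
  have hτx : ∀ x : 𝓞 L, τ (Ideal.Quotient.mk w.asIdeal x) = Ideal.Quotient.mk w.asIdeal (σ • x) :=
    fun x => rfl
  have hτ : τ ≠ 1 := by
    intro h
    have h1 : σ ∈ w.asIdeal.inertia Gal(L/K) := by
      intro x
      have h3 := hτx x
      rw [h, AlgEquiv.one_apply, eq_comm, Ideal.Quotient.eq] at h3
      exact h3
    have h2 : (w.asIdeal.inertia Gal(L/K)) = ⊥ := Subgroup.card_eq_one.mp hin
    rw [h2, Subgroup.mem_bot] at h1
    exact hσ h1
  constructor
  · obtain ⟨t, ht⟩ := Algebra.trace_surjective (𝓞 K ⧸ v.asIdeal) (𝓞 L ⧸ w.asIdeal) 1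
    obtain ⟨t, rfl⟩ := Ideal.Quotient.mk_surjective t
    refine ⟨t, fun h => ?_⟩
    have h3 := trace_eq_add hd hτ (Ideal.Quotient.mk w.asIdeal t)
    rw [ht, map_one, hτx, ← map_add, Ideal.Quotient.eq_zero_iff_mem.mpr h] at h3
    exact one_ne_zero h3
  · intro c
    obtain ⟨s, hs⟩ := FiniteField.norm_surjective (𝓞 K ⧸ v.asIdeal) (𝓞 L ⧸ w.asIdeal)
      (Ideal.Quotient.mk v.asIdeal c)
    obtain ⟨s, rfl⟩ := Ideal.Quotient.mk_surjective s
    refine ⟨s, ?_⟩
    have h3 := norm_eq_mul hd hτ (Ideal.Quotient.mk w.asIdeal s)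
    rw [hs, hτx, ← map_mul] at h3
    rw [← Ideal.Quotient.eq, ← h3]
    rfl

lemma le_exp_of_lt {x : ℤᵐ⁰} {a : ℤ} (h : x < exp a) : x ≤ exp (a - 1) := by
  rcases eq_or_ne x 0 with rfl | hx
  · exact zero_le
  · rw [← exp_log hx, exp_lt_exp] at h
    rw [← exp_log hx, exp_le_exp]
    omega

omit [IsGalois K L] in
lemma valuation_algebraMap_of_unr {w : HeightOneSpectrum (𝓞 L)}
    (he : (w.under (𝓞 K)).asIdeal.ramificationIdx' w.asIdeal = 1) (x : K) :
    w.valuation L (algebraMap K L x) = (w.under (𝓞 K)).valuation K x := by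
  rw [valuation_algebraMap, he, pow_one]

include h2 hσ in
lemma valuation_norm {w : HeightOneSpectrum (𝓞 L)} (hw : conj σ w = w)
    (he : (w.under (𝓞 K)).asIdeal.ramificationIdx' w.asIdeal = 1) (x : L) :
    (w.under (𝓞 K)).valuation K (Algebra.norm K x) = w.valuation L x ^ 2 := by
  rw [← valuation_algebraMap_of_unr he, norm_eq_mul h2 hσ, map_mul,
    valuation_apply_of_conj_eq σ w hw, sq]

include h2 hσ in
/-- units at an inert unramified place are local norms -/
theorem exists_norm_cong {w : HeightOneSpectrum (𝓞 L)} (hw : conj σ w = w)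
    (he : (w.under (𝓞 K)).asIdeal.ramificationIdx' w.asIdeal = 1) (n : ℕ) (u : Kˣ)
    (hu : ord (w.under (𝓞 K)) u = 0) :
    ∃ z : Lˣ, u / normU L z ∈ cong (w.under (𝓞 K)) n := by
  have hval := valuation_algebraMap_of_unr (K := K) he
  have hnv := valuation_norm h2 hσ hw he
  obtain ⟨-, ⟨t, ht⟩, hres⟩ := residue h2 hσ w hw he
  set v := w.under (𝓞 K) with hv
  have hcoe : ∀ (x : Kˣ) (z : Lˣ), ((x / normU L z : Kˣ) : K) = x / Algebra.norm K (z : L) := by
    intro x z
    rw [Units.val_div_eq_div_val]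
    rfl
  induction n with
  | zero =>
    have hu1 : v.valuation K (u : K) = 1 := (ord_eq_zero_iff _ _ _).mp hu
    obtain ⟨c, hc⟩ := v.exists_valuation_sub_lt_of_integer hu1.le 1
    rw [Units.val_one] at hc
    obtain ⟨s, hs⟩ := hres c
    have h1 : v.valuation K (Algebra.norm K (s : L) - algebraMap (𝓞 K) K c) < 1 := by
      rw [← hval, map_sub, norm_eq_mul h2 hσ]
      exact (w.valuation_lt_one_iff_mem (K := L) _).mpr hs
    have h2 : v.valuation K (Algebra.norm K (s : L) - u) < 1 := by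
      have h3 : Algebra.norm K (s : L) - u = (Algebra.norm K (s : L) - algebraMap (𝓞 K) K c) +
        (algebraMap (𝓞 K) K c - u) := by ring
      rw [h3]
      exact Valuation.map_add_lt _ h1 hc
    have h3 : v.valuation K (Algebra.norm K (s : L)) = 1 := by
      have h4 : Algebra.norm K (s : L) = (Algebra.norm K (s : L) - u) + u := by ring
      rw [h4, Valuation.map_add_eq_of_lt_right _ (by rw [hu1]; exact h2), hu1]
    have hs0 : (s : L) ≠ 0 := by
      intro h
      rw [h, Algebra.norm_zero, map_zero] at h3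
      exact zero_ne_one h3
    refine ⟨Units.mk0 (s : L) hs0, ?_⟩
    rw [mem_cong, hcoe, Units.val_mk0]
    have h5 : Algebra.norm K (s : L) ≠ 0 := by
      intro h
      rw [h, map_zero] at h3
      exact zero_ne_one h3
    have h4 : (u : K) / Algebra.norm K (s : L) - 1 =
      - (Algebra.norm K (s : L) - u) / Algebra.norm K (s : L) := by
      field_simp
      ring
    rw [h4, map_div₀, h3, div_one, Valuation.map_neg]
    rw [← exp_zero] at h2
    exact le_exp_of_lt h2
  | succ n ih =>
    obtain ⟨z, hz⟩ := ih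
    set u' := u / normU L z with hu'
    have hu'1 : v.valuation K (u' : K) = 1 := (ord_eq_zero_iff _ _ _).mp
      (ord_eq_zero_of_mem_cong hz)
    rw [mem_cong] at hz
    -- the trace of `t`
    have htr : v.valuation K (Algebra.trace K L (t : L)) = 1 := by
      rw [← hval, trace_eq_add h2 hσ]
      exact (w.valuation_eq_one_iff_notMem (K := L)).mpr ht
    have htr0 : Algebra.trace K L (t : L) ≠ 0 := by
      intro h
      rw [h, map_zero] at htr
      exact zero_ne_one htr
    set c : K := (u' - 1) / Algebra.trace K L (t : L) with hc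
    have hcv : v.valuation K c ≤ exp (-((n : ℤ) + 1)) := by
      rw [hc, map_div₀, htr, div_one]
      exact hz
    have hNt : v.valuation K (Algebra.norm K (t : L)) ≤ 1 := by
      rw [hnv]
      exact pow_le_one₀ zero_le (w.valuation_le_one _)
    have hN : Algebra.norm K (1 + c • (t : L)) = u' + c ^ 2 * Algebra.norm K (t : L) := by
      apply (algebraMap K L).injective
      rw [Algebra.smul_def, norm_eq_mul h2 hσ, map_add, map_add, map_one, map_mul, map_mul,
        norm_eq_mul h2 hσ, map_pow, AlgEquiv.commutes]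
      have h3 : algebraMap K L c * ((t : L) + σ t) = algebraMap K L u' - 1 := by
        rw [← trace_eq_add h2 hσ, ← map_mul, hc, div_mul_cancel₀ _ htr0, map_sub, map_one]
      linear_combination h3
    have hb : v.valuation K (c ^ 2 * Algebra.norm K (t : L)) ≤ exp (-(((n + 1 : ℕ) : ℤ) + 1)) := by
      rw [map_mul, map_pow]
      calc v.valuation K c ^ 2 * v.valuation K (Algebra.norm K (t : L))
          ≤ exp (-((n : ℤ) + 1)) ^ 2 * 1 :=
            mul_le_mul' (pow_le_pow_left₀ zero_le hcv 2) hNt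
        _ ≤ _ := by
            rw [mul_one, ← exp_nsmul, exp_le_exp]
            simp only [nsmul_eq_mul]
            push_cast
            omega
    have hlt : v.valuation K (c ^ 2 * Algebra.norm K (t : L)) < 1 := by
      refine lt_of_le_of_lt hb ?_
      rw [← exp_zero, exp_lt_exp]
      omega
    have hN1 : v.valuation K (Algebra.norm K (1 + c • (t : L))) = 1 := by
      rw [hN, Valuation.map_add_eq_of_lt_left _ (by rw [hu'1]; exact hlt), hu'1]
    have hN0 : Algebra.norm K (1 + c • (t : L)) ≠ 0 := by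
      intro h
      rw [h, map_zero] at hN1
      exact zero_ne_one hN1
    have h0 : (1 + c • (t : L)) ≠ 0 := by
      intro h
      rw [h, Algebra.norm_zero] at hN0
      exact hN0 rfl
    refine ⟨z * Units.mk0 _ h0, ?_⟩
    rw [map_mul, ← div_div, ← hu', mem_cong, hcoe, Units.val_mk0]
    have h4 : (u' : K) / Algebra.norm K (1 + c • (t : L)) - 1 =
      - (c ^ 2 * Algebra.norm K (t : L)) / Algebra.norm K (1 + c • (t : L)) := by
      rw [div_sub_one hN0, hN]
      congr 1
      ring
    rw [h4, map_div₀, hN1, div_one, Valuation.map_neg]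
    exact hb

include h2 hσ in
/-- if `σ` moves a place above `v` then `a` is a square in the completion -/
theorem mem_locPow_of_conj_ne {α : L} {a : Kˣ} (hα : α ^ 2 = algebraMap K L a) (hσα : σ α = -α)
    {w : HeightOneSpectrum (𝓞 L)} (hw : conj σ w ≠ w)
    (he : (w.under (𝓞 K)).asIdeal.ramificationIdx' w.asIdeal = 1) :
    a ∈ locPow 2 (w.under (𝓞 K)) := by
  classical
  have hval := valuation_algebraMap_of_unr (K := K) he
  set v := w.under (𝓞 K) with hv
  rw [mem_locPow]
  intro n
  have hα0 : α ≠ 0 := by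
    rintro rfl
    rw [zero_pow two_ne_zero] at hα
    exact (map_ne_zero (algebraMap K L)).mpr a.ne_zero hα.symm
  obtain ⟨π, hπ⟩ := exists_ord_eq_one v
  set w' := conj σ w with hw'
  have hσσ : conj σ w' = w := by
    have h1 : σ * σ = 1 := AlgEquiv.ext fun x => apply_apply h2 hσ x
    rw [hw', ← Places.conj_mul, h1, conj_one]
  set b : Lˣ := Units.map (algebraMap K L : K →* L) (π ^ (n + 1)) with hb
  obtain ⟨δ, hδ⟩ := indep_cong ({w, w'} : Finset (HeightOneSpectrum (𝓞 L))) n
    (fun w₁ => if w₁ = w then 1 else b)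
  have h3 : w.valuation L ((δ : L) - 1) ≤ exp (-((n : ℤ) + 1)) := by
    have h4 := hδ w (by simp)
    rw [if_pos rfl, div_one, mem_cong] at h4
    exact h4
  have h4 : w'.valuation L (δ : L) = exp (-((n : ℤ) + 1)) := by
    have h5 := hδ w' (by simp)
    rw [if_neg hw] at h5
    have h6 := ord_eq_zero_of_mem_cong h5
    rw [ord_eq_zero_iff, Units.val_div_eq_div_val, map_div₀] at h6
    have h7 : w'.valuation L (b : L) = exp (-((n : ℤ) + 1)) := by
      have h8 : σ (b : L) = b := σ.commutes _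
      rw [← h8, hw', valuation_conj, hb, Units.coe_map]
      change w.valuation L (algebraMap K L ((π ^ (n + 1) : Kˣ) : K)) = _
      rw [hval, Units.val_pow_eq_pow_val, map_pow, valuation_eq_exp_neg_ord, hπ, ← exp_nsmul]
      simp
    rw [← h7]
    exact (div_eq_one_iff_eq ((Valuation.ne_zero_iff _).mpr b.ne_zero)).mp h6
  have h5 : w.valuation L (σ (δ : L)) = exp (-((n : ℤ) + 1)) := by
    rw [← h4, ← hσσ, valuation_conj]
  set r := (δ : L) - σ δ with hr
  have h6 : w.valuation L (r - 1) ≤ exp (-((n : ℤ) + 1)) := by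
    have h7 : r - 1 = ((δ : L) - 1) - σ δ := by rw [hr]; ring
    rw [h7]
    refine (Valuation.map_sub _ _ _).trans (max_le h3 h5.le)
  have h7 : w.valuation L (r - 1) < 1 := by
    refine lt_of_le_of_lt h6 ?_
    rw [← exp_zero, exp_lt_exp]
    omega
  have hr0 : r ≠ 0 := by
    intro h
    rw [h, zero_sub, Valuation.map_neg, map_one] at h7
    exact lt_irrefl _ h7
  have h8 : Units.mk0 r hr0 ∈ cong w n := by
    rw [mem_cong]
    exact h6
  have h9 := inv_mem (pow_mem h8 2)
  rw [mem_cong] at h9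
  obtain ⟨y, hy⟩ := mem_range_of_fixed h2 hσ (x := α * r) (by
    rw [hr, map_mul, map_sub, apply_apply h2 hσ, hσα]
    ring)
  have hy0 : y ≠ 0 := by
    rintro rfl
    rw [map_zero] at hy
    exact mul_ne_zero hα0 hr0 hy.symm
  refine ⟨Units.mk0 y hy0, ?_⟩
  rw [← hval, map_sub, map_one]
  convert h9 using 3
  rw [Units.val_div_eq_div_val, Units.val_pow_eq_pow_val, Units.val_mk0, map_div₀, map_pow, hy,
    ← hα, Units.val_inv_eq_inv_val, Units.val_pow_eq_pow_val, Units.val_mk0]
  field_simp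

end Inert

/-! ### Symbols -/

section Sym

variable {K L : Type*} [Field K] [NumberField K] [Field L] [NumberField L] [Algebra K L]
  [IsGalois K L] (h2 : Module.finrank K L = 2) {σ : L ≃ₐ[K] L} (hσ : σ ≠ 1)

lemma isPrimitiveRoot_neg_one' (K : Type*) [Field K] [NumberField K] :
    IsPrimitiveRoot (-1 : K) 2 := IsPrimitiveRoot.neg_one 0 (by norm_num)

include h2 hσ in
lemma inert_iff {w : HeightOneSpectrum (𝓞 L)} :
    Inert L (w.under (𝓞 K)) ↔ conj σ w = w := by
  have hG : Nat.card Gal(L/K) = 2 := by rw [IsGalois.card_aut_eq_finrank, h2]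
  constructor
  · rintro ⟨w', hw', h⟩
    have h1 : (w'.under (𝓞 K)).asIdeal = (w.under (𝓞 K)).asIdeal := by rw [hw']
    have h3 : w'.asIdeal.LiesOver (w.under (𝓞 K)).asIdeal := by
      rw [← h1]
      infer_instance
    obtain ⟨τ, hτ⟩ := Ideal.exists_smul_eq_of_isGaloisGroup (w.under (𝓞 K)).asIdeal w'.asIdeal
      w.asIdeal Gal(L/K)
    have h4 : conj τ w' = w := by
      apply HeightOneSpectrum.ext
      rw [← smul_asIdeal, hτ]
    rw [← h4, h τ, h σ]
  · intro h
    refine ⟨w, rfl, fun τ => ?_⟩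
    rcases eq_one_or_of_card_two hG hσ τ with rfl | rfl
    · exact conj_one w
    · exact h

include h2 hσ in
/-- `a` is a local square iff the place is not inert. -/
theorem mem_locPow_iff_not_inert {α : L} {a : Kˣ} (hα : α ^ 2 = algebraMap K L a)
    (hσα : σ α = -α) {v : HeightOneSpectrum (𝓞 K)}
    (he : ∀ w : HeightOneSpectrum (𝓞 L), w.under (𝓞 K) = v →
      v.asIdeal.ramificationIdx' w.asIdeal = 1) :
    a ∈ locPow 2 v ↔ ¬ Inert L v := by
  obtain ⟨w, rfl⟩ := exists_below_eq L v
  rw [inert_iff h2 hσ]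
  constructor
  · intro h
    exact FirstIneq.conj_ne_of_mem_locPow Nat.prime_two (isPrimitiveRoot_neg_one' K) hα h
      (by rw [hσα, map_neg, map_one, neg_one_mul]) w rfl
  · intro h
    exact mem_locPow_of_conj_ne h2 hσ hα hσα h (he w rfl)

omit [NumberField K] [NumberField L] [IsGalois K L] in
/-- norms from `K[X]/(X² - a)` are norms from `L = K(α)`. -/
lemma isNormFrom_iff [CharZero K] [FiniteDimensional K L] (h2 : Module.finrank K L = 2) {α : L} {a : Kˣ}
    (hα : α ^ 2 = algebraMap K L a) (hna : ∀ b : Kˣ, b ^ 2 ≠ a) (x : Kˣ) :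
    IsNormFrom 2 a x ↔ ∃ z : L, Algebra.norm K z = (x : K) := by
  have hirr : Irreducible (X ^ 2 - C (a : K)) := irreducible_of_not_pow Nat.prime_two hna
  have hfact : Fact (Irreducible (X ^ 2 - C (a : K))) := ⟨hirr⟩
  have h1 : (X ^ 2 - C (a : K)).eval₂ (algebraMap K L) α = 0 := by
    simp [hα]
  let f : AdjoinRoot (X ^ 2 - C (a : K)) →ₐ[K] L :=
    AdjoinRoot.liftAlgHom (X ^ 2 - C (a : K)) (Algebra.ofId K L) α h1
  have hfd : Module.Finite K (AdjoinRoot (X ^ 2 - C (a : K))) :=
    (AdjoinRoot.powerBasis hirr.ne_zero).finite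
  have hrank : Module.finrank K (AdjoinRoot (X ^ 2 - C (a : K))) = 2 := by
    rw [(AdjoinRoot.powerBasis hirr.ne_zero).finrank, AdjoinRoot.powerBasis_dim,
      natDegree_X_pow_sub_C]
  have hinj : Function.Injective f.toLinearMap := f.toRingHom.injective
  have hsurj : Function.Surjective f.toLinearMap :=
    (LinearMap.injective_iff_surjective_of_finrank_eq_finrank (by rw [hrank, h2])).mp hinj
  let e : AdjoinRoot (X ^ 2 - C (a : K)) ≃ₐ[K] L := AlgEquiv.ofBijective f ⟨hinj, hsurj⟩
  constructor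
  · rintro ⟨z, hz⟩
    exact ⟨e z, by rw [Algebra.norm_eq_of_algEquiv e z, hz]⟩
  · rintro ⟨z, hz⟩
    exact ⟨e.symm z, by rw [← hz, ← Algebra.norm_eq_of_algEquiv e.symm z]⟩

include h2 hσ in
/-- **The symbols at the inert places are the parities.** -/
theorem sym_eq_one_iff (LS : LocalSymbols 2 K) {α : L} {a : Kˣ} (hα : α ^ 2 = algebraMap K L a)
    (hσα : σ α = -α) (hna : ∀ b : Kˣ, b ^ 2 ≠ a) {v : HeightOneSpectrum (𝓞 K)}
    (he : ∀ w : HeightOneSpectrum (𝓞 L), w.under (𝓞 K) = v →
      v.asIdeal.ramificationIdx' w.asIdeal = 1) (hv : Inert L v) (x : Kˣ) :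
    LS.sym v a x = 1 ↔ Even (ord v x) := by
  have ha : a ∉ locPow 2 v := by
    rw [mem_locPow_iff_not_inert h2 hσ hα hσα he, not_not]
    exact hv
  have h1 : unitsAt v ≤ LS.N v a := by
    intro u hu
    obtain ⟨n, hn⟩ := exists_cong_le_locPow 2 two_ne_zero v
    obtain ⟨w, rfl, hw⟩ := hv
    obtain ⟨z, hz⟩ := exists_norm_cong h2 hσ (hw σ) (he w rfl) n u hu
    have h3 : LS.sym (w.under (𝓞 K)) a (u / normU L z) = 1 :=
      LS.sym_eq_one_of_right (hn hz)
    have h4 : LS.sym (w.under (𝓞 K)) a (normU L z) = 1 :=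
      LS.norm_mem _ _ _ ((isNormFrom_iff h2 hα hna _).mpr ⟨z, rfl⟩)
    rw [_root_.map_div, h4, div_one] at h3
    exact h3
  have h3 : locPow 2 v ⊔ unitsAt v ≤ LS.N v a := sup_le (LS.locPow_le_N v a) h1
  have h4 : LS.N v a = locPow 2 v ⊔ unitsAt v := by
    refine le_antisymm ?_ h3
    rw [← Subgroup.relIndex_eq_one]
    have h5 := Subgroup.relIndex_mul_index h3
    rw [LS.index_N Nat.prime_two ha, index_ker_ordMod Nat.prime_two v] at h5
    omega
  rw [← LocalSymbols.mem_N, h4, ← ker_ordMod, mem_ker_ordMod, even_iff_two_dvd]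
  rfl

end Sym

/-! ### The four statements -/

section Main

variable {K : Type} {L : Type*} [Field K] [NumberField K] [IsTotallyComplex K] [Field L]
  [NumberField L] [Algebra K L] [IsGalois K L] (h2 : Module.finrank K L = 2)
  (he : ∀ w : HeightOneSpectrum (𝓞 L), (w.under (𝓞 K)).asIdeal.ramificationIdx' w.asIdeal = 1)

include h2 he in
/-- everything at once -/
lemma exists_data : ∃ (S : GlobSym K) (a : Kˣ), (∀ b : Kˣ, b ^ 2 ≠ a) ∧
    (∀ v, a ∈ locPow 2 v ↔ ¬ Inert L v) ∧
    (∀ v x, Inert L v → (S.LS.sym v a x = 1 ↔ Even (ord v x))) ∧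
    (∀ x : Kˣ, IsNormFrom 2 a x → ∃ z : L, Algebra.norm K z = (x : K)) := by
  obtain ⟨S⟩ := nonempty_globSym K
  have hG : Nat.card Gal(L/K) = 2 := by rw [IsGalois.card_aut_eq_finrank, h2]
  have : Nontrivial Gal(L/K) := by
    by_contra h
    rw [not_nontrivial_iff_subsingleton] at h
    have := Nat.card_of_subsingleton (1 : Gal(L/K))
    omega
  obtain ⟨σ, hσ⟩ := exists_ne (1 : Gal(L/K))
  obtain ⟨α, a, hα, hσα, hna, -⟩ := exists_gen_quad h2 hσ
  have hna' : ∀ b : Kˣ, b ^ 2 ≠ a := by
    intro b hb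
    exact hna b (by rw [← hb, Units.val_pow_eq_pow_val])
  have he' : ∀ v : HeightOneSpectrum (𝓞 K), ∀ w : HeightOneSpectrum (𝓞 L),
      w.under (𝓞 K) = v → v.asIdeal.ramificationIdx' w.asIdeal = 1 := by
    rintro _ w rfl
    exact he w
  exact ⟨S, a, hna', fun v => mem_locPow_iff_not_inert h2 hσ hα hσα (he' v),
    fun v x hv => sym_eq_one_iff h2 hσ S.LS hα hσα hna' (he' v) hv x,
    fun x => (isNormFrom_iff h2 hα hna' x).mp⟩

include h2 he in
/-- **(U1) Reciprocity**: an even number of inert places have odd order. -/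
theorem recip (x : Kˣ) :
    Even (Set.ncard {v : HeightOneSpectrum (𝓞 K) | Inert L v ∧ Odd (ord v x)}) := by
  obtain ⟨S, a, -, hloc, hsym, -⟩ := exists_data h2 he
  have h1 := S.prod a x
  have h3 : ∀ z : ZMod 2, z ≠ 0 → z = 1 := by decide
  rw [Finsupp.sum, Finset.sum_congr rfl (g := fun _ => (1 : ZMod 2)) (fun v hv => by
    exact h3 _ (Finsupp.mem_support_iff.mp hv)), Finset.sum_const, nsmul_one,
    ZMod.natCast_eq_zero_iff_even] at h1
  have h4 : {v : HeightOneSpectrum (𝓞 K) | Inert L v ∧ Odd (ord v x)} =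
      ↑(symVec S.LS two_ne_zero a x).support := by
    ext v
    rw [Finset.mem_coe, Finsupp.mem_support_iff, symVec_apply]
    have h5 : (S.LS.sym v a x).toAdd ≠ 0 ↔ S.LS.sym v a x ≠ 1 := Iff.rfl
    rw [h5]
    constructor
    · rintro ⟨hv, ho⟩ h
      rw [hsym v x hv] at h
      exact (Int.not_even_iff_odd.mpr ho) h
    · intro h
      have hv : Inert L v := by
        by_contra hv
        exact h (S.LS.sym_eq_one_of_left ((hloc v).mpr hv))
      refine ⟨hv, ?_⟩
      rw [Ne, hsym v x hv] at h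
      exact Int.not_even_iff_odd.mp h
  rw [h4, Set.ncard_coe_finset]
  exact h1

include h2 he in
/-- **(U2) Existence.** -/
theorem exist {v₁ v₂ : HeightOneSpectrum (𝓞 K)} (h12 : v₁ ≠ v₂) (hv₁ : Inert L v₁)
    (hv₂ : Inert L v₂) :
    ∃ x : Kˣ, ∀ v, Inert L v → (Odd (ord v x) ↔ (v = v₁ ∨ v = v₂)) := by
  classical
  obtain ⟨S, a, hna, hloc, hsym, -⟩ := exists_data h2 he
  obtain ⟨x, hx⟩ := S.exist a hna (Finsupp.single v₁ 1 + Finsupp.single v₂ 1) (by
      intro v hv
      have h1 := (hloc v).mp hv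
      rw [Finsupp.add_apply, Finsupp.single_eq_of_ne, Finsupp.single_eq_of_ne, add_zero]
      · rintro rfl
        exact h1 hv₂
      · rintro rfl
        exact h1 hv₁) (by
      rw [Finsupp.sum_add_index' (fun _ => rfl) (fun _ _ _ => rfl), Finsupp.sum_single_index rfl,
        Finsupp.sum_single_index rfl]
      decide)
  refine ⟨x, fun v hv => ?_⟩
  have h1 := DFunLike.congr_fun hx v
  rw [symVec_apply, Finsupp.add_apply] at h1
  have h3 : (S.LS.sym v a x).toAdd = 0 ↔ S.LS.sym v a x = 1 := Iff.rfl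
  rw [← Int.not_even_iff_odd, ← hsym v x hv, ← h3, h1]
  constructor
  · intro h
    by_contra hcon
    push Not at hcon
    apply h
    rw [Finsupp.single_eq_of_ne hcon.1, Finsupp.single_eq_of_ne hcon.2, add_zero]
  · rintro (rfl | rfl)
    · rw [Finsupp.single_eq_same, Finsupp.single_eq_of_ne h12]
      decide
    · rw [Finsupp.single_eq_same, Finsupp.single_eq_of_ne (Ne.symm h12)]
      decide

include h2 he in
/-- **(U3) Hasse norm theorem.** -/
theorem hasse (x : Kˣ) (hx : ∀ v : HeightOneSpectrum (𝓞 K), Inert L v → Even (ord v x)) :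
    ∃ z : L, Algebra.norm K z = (x : K) := by
  obtain ⟨S, a, hna, hloc, hsym, hN⟩ := exists_data h2 he
  apply hN
  refine hasse_norm_all (isPrimitiveRoot_neg_one' K) S.LS hna x fun v => ?_
  by_cases hv : Inert L v
  · rw [hsym v x hv]
    exact hx v hv
  · exact S.LS.sym_eq_one_of_left ((hloc v).mpr hv)

include h2 he in
/-- **(U4)** there is an inert place. -/
theorem exists_inert : ∃ v : HeightOneSpectrum (𝓞 K), Inert L v := by
  obtain ⟨S, a, hna, hloc, hsym, hN⟩ := exists_data h2 he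
  obtain ⟨v, -, hv⟩ := exists_notMem_locPow inputs (isPrimitiveRoot_neg_one' K) ∅ hna
  exact ⟨v, by rwa [hloc, not_not] at hv⟩

end Main

end Fermat.Agent.CFT.Global2.Unr
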